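import Mathlib.RingTheory.Regular.RegularSequence
import Mathlib.RingTheory.MvPowerSeries.Inverse
import Mathlib.RingTheory.DiscreteValuationRing.Basic

/-!
# The regular system of parameters of a power series ring over a DVR
-/

set_option autoImplicit false

namespace FermatLib.Basic

open MvPowerSeries IsLocalRing RingTheory.Sequence

variable {σ R : Type*} [CommRing R]

lemma mvPowerSeries_mem_span_X_iff (s : Finset σ) (f : MvPowerSeries σ R) :
    f ∈ Ideal.span ((MvPowerSeries.X : σ → MvPowerSeries σ R) '' ↑s) ↔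
      ∀ m : σ →₀ ℕ, (∀ j ∈ s, m j = 0) → coeff m f = 0 := by
  classical
  induction s using Finset.induction_on generalizing f with
  | empty =>
    simp only [Finset.coe_empty, Set.image_empty, Ideal.span_empty, Ideal.mem_bot,
      Finset.notMem_empty, IsEmpty.forall_iff, imp_true_iff, forall_const]
    exact ⟨fun h m => by rw [h, map_zero], fun h => MvPowerSeries.ext fun m => by simp [h m]⟩
  | @insert a s ha ih =>
    rw [Finset.coe_insert, Set.image_insert_eq, Ideal.mem_span_insert]
    constructor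
    · rintro ⟨g, z, hz, rfl⟩ m hm
      rw [map_add, (ih z).mp hz m fun j hj => hm j (Finset.mem_insert_of_mem hj), add_zero]
      exact X_dvd_iff.mp (Dvd.intro_left g rfl) m (hm a (Finset.mem_insert_self a s))
    · intro h
      let f₁ : MvPowerSeries σ R := fun m => if m a = 0 then 0 else coeff m f
      have hf₁ : ∀ m, coeff m f₁ = if m a = 0 then 0 else coeff m f := fun m => rfl
      obtain ⟨g, hg⟩ : X a ∣ f₁ := X_dvd_iff.mpr fun m hm => by rw [hf₁, if_pos hm]
      refine ⟨g, f - f₁, (ih _).mpr fun m hm => ?_, by rw [mul_comm g, ← hg]; ring⟩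
      rw [map_sub, hf₁]
      split_ifs with hma
      · rw [sub_zero]
        refine h m fun j hj => ?_
        rcases Finset.mem_insert.mp hj with rfl | hj
        · exact hma
        · exact hm j hj
      · exact sub_self _

variable {r : ℕ}

lemma ofList_take_ofFn_X (i : ℕ) :
    Ideal.ofList ((List.ofFn (MvPowerSeries.X : Fin r → MvPowerSeries (Fin r) R)).take i) =
      Ideal.span ((MvPowerSeries.X : Fin r → MvPowerSeries (Fin r) R) ''
        ↑(Finset.univ.filter fun j : Fin r => (j : ℕ) < i)) := by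
  apply le_antisymm <;> refine Ideal.span_le.mpr ?_
  · intro x hx
    obtain ⟨k, hk, rfl⟩ := List.mem_take_iff_getElem.mp hx
    simp only [List.length_ofFn, lt_min_iff] at hk
    rw [List.getElem_ofFn]
    exact Ideal.subset_span ⟨_, by simpa using hk.1, rfl⟩
  · rintro _ ⟨j, hj, rfl⟩
    refine Ideal.subset_span (List.mem_take_iff_getElem.mpr ⟨j, ?_, ?_⟩)
    · simp only [List.length_ofFn, lt_min_iff]
      exact ⟨by simpa using hj, j.2⟩
    · simp

lemma isWeaklyRegular_ofFn_X :
    IsWeaklyRegular (MvPowerSeries (Fin r) R)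
      (List.ofFn (MvPowerSeries.X : Fin r → MvPowerSeries (Fin r) R)) := by
  refine ⟨fun i hi => ?_⟩
  rw [List.length_ofFn] at hi
  rw [isSMulRegular_quotient_iff_mem_of_smul_mem]
  intro f hf
  rw [smul_eq_mul, Ideal.mul_top, ofList_take_ofFn_X, mvPowerSeries_mem_span_X_iff] at hf ⊢
  intro m hm
  have h := hf (Finsupp.single ⟨i, hi⟩ 1 + m) fun j hj => by
    have hj' : (j : ℕ) < i := (Finset.mem_filter.mp hj).2
    have : j ≠ ⟨i, hi⟩ := fun e => by simp [e] at hj'
    simp [Finsupp.single_eq_of_ne this, hm j hj]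
  rw [List.getElem_ofFn, smul_eq_mul, MvPowerSeries.X_def, coeff_add_monomial_mul, one_mul] at h
  exact h

lemma mem_ofList_X_iff (f : MvPowerSeries (Fin r) R) :
    f ∈ Ideal.ofList (List.ofFn (MvPowerSeries.X : Fin r → MvPowerSeries (Fin r) R)) ↔
      constantCoeff f = 0 := by
  have h := ofList_take_ofFn_X (R := R) (r := r) r
  rw [List.take_of_length_le (by rw [List.length_ofFn])] at h
  rw [h, mvPowerSeries_mem_span_X_iff, ← coeff_zero_eq_constantCoeff_apply]
  constructor
  · exact fun h => h 0 fun _ _ => rfl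
  · intro h m hm
    obtain rfl : m = 0 := Finsupp.ext fun j => hm j (by simp)
    exact h

lemma isWeaklyRegular_X_append_C [IsDomain R] {ϖ : R} (hϖ : ϖ ≠ 0) :
    IsWeaklyRegular (MvPowerSeries (Fin r) R)
      (List.ofFn (MvPowerSeries.X : Fin r → MvPowerSeries (Fin r) R) ++
        [MvPowerSeries.C ϖ]) := by
  rw [isWeaklyRegular_append_iff, isWeaklyRegular_singleton_iff]
  refine ⟨isWeaklyRegular_ofFn_X, ?_⟩
  rw [isSMulRegular_quotient_iff_mem_of_smul_mem]
  intro f hf
  rw [smul_eq_mul, Ideal.mul_top, mem_ofList_X_iff] at hf ⊢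
  rw [smul_eq_mul, map_mul, constantCoeff_C] at hf
  exact (mul_eq_zero.mp hf).resolve_left hϖ

lemma ofList_X_append_C_eq_maximalIdeal [IsDomain R] [IsDiscreteValuationRing R] {ϖ : R}
    (hϖ : Irreducible ϖ) :
    Ideal.ofList (List.ofFn (MvPowerSeries.X : Fin r → MvPowerSeries (Fin r) R) ++
        [MvPowerSeries.C ϖ]) = maximalIdeal (MvPowerSeries (Fin r) R) := by
  rw [Ideal.ofList_append, Ideal.ofList_singleton]
  ext f
  rw [IsLocalRing.mem_maximalIdeal, mem_nonunits_iff, MvPowerSeries.isUnit_iff_constantCoeff,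
    ← mem_nonunits_iff, ← IsLocalRing.mem_maximalIdeal, hϖ.maximalIdeal_eq,
    Ideal.mem_span_singleton]
  constructor
  · intro hf
    obtain ⟨g, hg, z, hz, rfl⟩ := Submodule.mem_sup.mp hf
    obtain ⟨c, rfl⟩ := Ideal.mem_span_singleton.mp hz
    simp [(mem_ofList_X_iff g).mp hg]
  · rintro ⟨c, hc⟩
    refine Submodule.mem_sup.mpr ⟨f - C (constantCoeff f), (mem_ofList_X_iff _).mpr (by simp),
      C (constantCoeff f), Ideal.mem_span_singleton.mpr ⟨C c, by rw [hc, map_mul]⟩, by ring⟩

end FermatLib.Basic
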