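import Mathlib
/-!
Eigencharacters of commutative rings of operators: every prime ideal containing the kernel of
the action contains the kernel of some eigencharacter.
-/
set_option autoImplicit false

namespace FermatLib.Basic

open Module

/-- If a commutative ring `T` acts on a finite-dimensional vector space `V` over an algebraically
closed field and the prime `P` contains the kernel of the action, then there is a common
eigenvector whose eigencharacter has kernel contained in `P`. -/
theorem exists_eigenchar_ker_le {K V T : Type*} [Field K] [IsAlgClosed K] [AddCommGroup V]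
    [Module K V] [FiniteDimensional K V] [CommRing T] (ρ : T →+* Module.End K V)
    (P : Ideal T) [hP : P.IsPrime] (hker : RingHom.ker ρ ≤ P) :
    ∃ (v : V) (χ : T →+* K), v ≠ 0 ∧ (∀ t, ρ t v = χ t • v) ∧ RingHom.ker χ ≤ P := by
  classical
  let stable : Submodule K V → Prop := fun W => ∀ t, ∀ w ∈ W, ρ t w ∈ W
  let good : Submodule K V → Prop := fun W =>
    stable W ∧ ∀ t, (∀ w ∈ W, ρ t w = 0) → t ∈ P
  have hcomm : ∀ s t (x : V), ρ s (ρ t x) = ρ t (ρ s x) := by
    intro s t x
    rw [← Module.End.mul_apply, ← map_mul, mul_comm, map_mul, Module.End.mul_apply]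
  have hne : {W | good W}.Nonempty :=
    ⟨⊤, fun _ _ _ => trivial,
      fun t ht => hker (LinearMap.ext fun x => by simpa using ht x trivial)⟩
  obtain ⟨W, hW, hWmin⟩ := (wellFounded_lt (α := Submodule K V)).has_min _ hne
  obtain ⟨hWst, hWann⟩ := hW
  have hW0 : W ≠ ⊥ := by
    rintro rfl
    exact hP.ne_top ((Ideal.eq_top_iff_one _).2 (hWann 1 (by simp)))
  have hne' : {U : Submodule K V | stable U ∧ U ≠ ⊥ ∧ U ≤ W}.Nonempty :=
    ⟨W, hWst, hW0, le_rfl⟩
  obtain ⟨U, ⟨hUst, hU0, hUW⟩, hUmin⟩ := (wellFounded_lt (α := Submodule K V)).has_min _ hne'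
  obtain ⟨v, hvU, hv0⟩ := Submodule.exists_mem_ne_zero_of_ne_bot hU0
  have heig : ∀ t, ∃ c : K, ρ t v = c • v := by
    intro t
    haveI : Nontrivial U := Submodule.nontrivial_iff_ne_bot.2 hU0
    obtain ⟨c, hc⟩ := Module.End.exists_eigenvalue ((ρ t).restrict (hUst t))
    obtain ⟨x, hx⟩ := hc.exists_hasEigenvector
    let U' : Submodule K V := U ⊓ LinearMap.ker (ρ t - c • 1)
    have hU'st : stable U' := by
      intro s w hw
      obtain ⟨hwU, hwk⟩ := Submodule.mem_inf.1 hw
      refine Submodule.mem_inf.2 ⟨hUst s w hwU, ?_⟩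
      simp only [LinearMap.mem_ker, LinearMap.sub_apply, LinearMap.smul_apply,
        Module.End.one_apply, sub_eq_zero] at hwk ⊢
      rw [hcomm, hwk, map_smul]
    have hxU' : (x : V) ∈ U' := by
      refine Submodule.mem_inf.2 ⟨x.2, ?_⟩
      simp only [LinearMap.mem_ker, LinearMap.sub_apply, LinearMap.smul_apply,
        Module.End.one_apply, sub_eq_zero]
      exact congrArg Subtype.val hx.apply_eq_smul
    have hU'0 : U' ≠ ⊥ := fun h => hx.2 (Subtype.ext ((Submodule.mem_bot K).1 (h ▸ hxU')))
    have hle : U' ≤ U := inf_le_left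
    have heq : U' = U := eq_of_le_of_not_lt hle
      (fun hlt => hUmin U' ⟨hU'st, hU'0, hle.trans hUW⟩ hlt)
    refine ⟨c, ?_⟩
    have hvU' : v ∈ U' := by rw [heq]; exact hvU
    have := (Submodule.mem_inf.1 hvU').2
    simpa [sub_eq_zero] using this
  choose c hc using heig
  have hinj : Function.Injective fun a : K => a • v := smul_left_injective K hv0
  let χ : T →+* K :=
    { toFun := c
      map_one' := hinj (by simp only [← hc, map_one, Module.End.one_apply, one_smul])
      map_mul' := fun s t => hinj (by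
        simp only [← hc, map_mul, Module.End.mul_apply]
        rw [hc t, map_smul, hc s, smul_smul, mul_comm])
      map_zero' := hinj (by simp only [← hc, map_zero, LinearMap.zero_apply, zero_smul])
      map_add' := fun s t => hinj (by
        simp only [← hc, map_add, LinearMap.add_apply, add_smul]) }
  refine ⟨v, χ, hv0, hc, fun t ht => ?_⟩
  have ht0 : ρ t v = 0 := by rw [hc t, show c t = 0 from ht, zero_smul]
  let g : Module.End K W := (ρ t).restrict (hWst t)
  have hgcoe : ∀ (k : ℕ) (x : W), ((g ^ k) x : V) = ρ (t ^ k) x := by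
    intro k
    induction k with
    | zero => intro x; simp
    | succ k ih =>
      intro x
      rw [pow_succ, pow_succ, map_mul, Module.End.mul_apply, Module.End.mul_apply, ih]
      rfl
  obtain ⟨k₀, hk₀⟩ := Filter.eventually_atTop.1 g.eventually_isCompl_ker_pow_range_pow
  have hcompl := hk₀ (k₀ + 1) k₀.le_succ
  set k := k₀ + 1
  let W₁ : Submodule K V := (LinearMap.ker (g ^ k)).map W.subtype
  let W₂ : Submodule K V := (LinearMap.range (g ^ k)).map W.subtype
  have hW₁st : stable W₁ := by
    rintro s _ ⟨x, hx, rfl⟩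
    refine ⟨⟨ρ s x, hWst s x x.2⟩, ?_, rfl⟩
    rw [SetLike.mem_coe, LinearMap.mem_ker] at hx ⊢
    refine Subtype.ext ?_
    rw [hgcoe, hcomm, ← hgcoe, hx]
    simp
  have hW₂st : stable W₂ := by
    rintro s _ ⟨_, ⟨x, rfl⟩, rfl⟩
    refine ⟨(g ^ k) ⟨ρ s x, hWst s x x.2⟩, ⟨_, rfl⟩, ?_⟩
    simp only [Submodule.subtype_apply, hgcoe]
    exact hcomm _ _ _
  have hzero : g ^ k = 0 := by
    by_contra hne
    have hvk : (⟨v, hUW hvU⟩ : W) ∈ LinearMap.ker (g ^ k) := by
      rw [LinearMap.mem_ker]
      refine Subtype.ext ?_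
      rw [hgcoe, pow_succ, map_mul, Module.End.mul_apply]
      simp [ht0]
    have lt₁ : W₁ < W := by
      refine lt_of_le_of_ne (Submodule.map_subtype_le _ _) fun h => hne ?_
      refine LinearMap.ker_eq_top.1 ?_
      apply Submodule.map_injective_of_injective W.injective_subtype
      rw [Submodule.map_subtype_top]; exact h
    have lt₂ : W₂ < W := by
      refine lt_of_le_of_ne (Submodule.map_subtype_le _ _) fun h => ?_
      have htop : LinearMap.range (g ^ k) = ⊤ := by
        apply Submodule.map_injective_of_injective W.injective_subtype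
        rw [Submodule.map_subtype_top]; exact h
      have hd := hcompl.disjoint
      rw [htop, disjoint_top] at hd
      rw [hd, Submodule.mem_bot] at hvk
      exact hv0 (congrArg Subtype.val hvk)
    have ex₁ : ∃ a, (∀ w ∈ W₁, ρ a w = 0) ∧ a ∉ P := by
      by_contra h; push Not at h
      exact hWmin W₁ ⟨hW₁st, h⟩ lt₁
    have ex₂ : ∃ a, (∀ w ∈ W₂, ρ a w = 0) ∧ a ∉ P := by
      by_contra h; push Not at h
      exact hWmin W₂ ⟨hW₂st, h⟩ lt₂
    obtain ⟨a, ha, haP⟩ := ex₁
    obtain ⟨b, hb, hbP⟩ := ex₂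
    refine (hP.mem_or_mem (hWann (a * b) fun w hw => ?_)).elim haP hbP
    obtain ⟨y, hy, z, hz, hyz⟩ :=
      Submodule.mem_sup.1 (hcompl.sup_eq_top ▸ Submodule.mem_top (x := (⟨w, hw⟩ : W)))
    have hw' : w = (y : V) + (z : V) := (congrArg Subtype.val hyz).symm
    rw [hw', map_add, map_mul, Module.End.mul_apply, Module.End.mul_apply, hcomm a b y,
      ha (y : V) ⟨y, hy, rfl⟩, map_zero, hb (z : V) ⟨z, hz, rfl⟩, map_zero, add_zero]
  refine hP.mem_of_pow_mem k (hWann _ fun w hw => ?_)
  simpa [hzero] using (hgcoe k ⟨w, hw⟩).symm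

end FermatLib.Basic
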