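import Fermat.Agent.Basic.EigenChar
import Fermat.Prelude.Def_CuspForm_HeckeLocal
import Fermat.Prelude.Thm_CongruenceSubgroup_one_mem_strictPeriods_Gamma0
import Fermat.Prelude.Thm_ModularFormClass_qCoeff_heckeT
import Fermat.Prelude.Thm_ModularFormClass_qCoeff_heckeU
import Fermat.Prelude.Thm_ModularForm_sturm_bound_Gamma0
/-!
Lifting a maximal ideal of the weight-2 Hecke algebra to a normalised eigenform.
-/
set_option autoImplicit false

noncomputable section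

open CongruenceSubgroup ModularFormClass

namespace FermatLib.Basic

section qCoeff

variable {N : ℕ} {k : ℤ}

theorem qCoeff_cusp_add (f g : CuspForm (Gamma0 N) k) (n : ℕ) :
    qCoeff ⇑(f + g) n = qCoeff ⇑f n + qCoeff ⇑g n := by
  simp only [qCoeff, FunLike.coe_add]
  rw [ModularForm.qExpansion_add one_pos (one_mem_strictPeriods_Gamma0 N) f g, map_add]

theorem qCoeff_cusp_smul (c : ℂ) (f : CuspForm (Gamma0 N) k) (n : ℕ) :
    qCoeff ⇑(c • f) n = c * qCoeff ⇑f n := by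
  simp only [qCoeff, FunLike.coe_smul]
  rw [ModularForm.qExpansion_smul one_pos (one_mem_strictPeriods_Gamma0 N) c f]
  simp

theorem qCoeff_cusp_sub (f g : CuspForm (Gamma0 N) k) (n : ℕ) :
    qCoeff ⇑(f - g) n = qCoeff ⇑f n - qCoeff ⇑g n := by
  have h := qCoeff_cusp_add (f - g) g n
  rw [sub_add_cancel] at h
  rw [h, add_sub_cancel_right]

theorem qCoeff_cusp_zero_index (f : CuspForm (Gamma0 N) k) : qCoeff ⇑f 0 = 0 :=
  CuspFormClass.qExpansion_coeff_zero f one_pos (one_mem_strictPeriods_Gamma0 N)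

theorem cusp_eq_zero_of_qCoeff_eq_zero [NeZero N] (f : CuspForm (Gamma0 N) k)
    (hf : ∀ n, qCoeff ⇑f n = 0) : f = 0 := by
  have h : (ModularFormClass.modularForm f : ModularForm (Gamma0 N) k) = 0 :=
    ModularForm.sturm_bound_Gamma0 N _ fun n _ => by simpa [qCoeff] using hf n
  have hcoe : (⇑f : UpperHalfPlane → ℂ) = 0 := by
    simpa using congrArg (fun F : ModularForm (Gamma0 N) k => (⇑F : UpperHalfPlane → ℂ)) h
  exact DFunLike.coe_injective (hcoe.trans FunLike.coe_zero.symm)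

theorem qCoeff_heckeTLin_two {ℓ : ℕ} (hℓ : ℓ.Prime) (hℓN : ¬ ℓ ∣ N)
    (f : CuspForm (Gamma0 N) 2) (n : ℕ) :
    qCoeff ⇑(CuspForm.heckeTLin 2 hℓ hℓN f) n
      = qCoeff ⇑f (n * ℓ) + if ℓ ∣ n then (ℓ : ℂ) * qCoeff ⇑f (n / ℓ) else 0 := by
  rw [CuspForm.coe_heckeTLin_apply,
    ModularFormClass.qCoeff_heckeT f (one_mem_strictPeriods_Gamma0 N) hℓ.ne_zero,
    ModularForm.coeffHeckeT_apply]
  norm_num

theorem qCoeff_heckeULin_apply [NeZero N] {q : ℕ} (hq : q.Prime) (hqN : q ∣ N)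
    (f : CuspForm (Gamma0 N) k) (n : ℕ) :
    qCoeff ⇑(CuspForm.heckeULin k hqN f) n = qCoeff ⇑f (n * q) := by
  rw [CuspForm.coe_heckeULin_apply,
    ModularFormClass.qCoeff_heckeU f (one_mem_strictPeriods_Gamma0 N) hq.ne_zero,
    ModularForm.coeffHeckeU_apply]

end qCoeff

section Recursion

variable {R : Type*} [CommRing R] {e c a : ℕ → R}

theorem heckeRel_eq_zero (h0 : a 0 = 0) (h1 : a 1 = 0)
    (hrel : ∀ ℓ : ℕ, ℓ.Prime → ∀ n : ℕ,
      a (ℓ * n) + e ℓ * (if ℓ ∣ n then a (n / ℓ) else 0) = c ℓ * a n) :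
    ∀ n, a n = 0 := by
  intro n
  induction n using Nat.strong_induction_on with
  | _ n ih =>
    rcases Nat.lt_or_ge n 2 with hn | hn
    · interval_cases n <;> assumption
    · obtain ⟨p, hp, m, rfl⟩ := Nat.exists_prime_and_dvd (show n ≠ 1 by omega)
      have hm : m < p * m := by
        have := hp.two_le
        have : 0 < m := Nat.pos_of_ne_zero (by rintro rfl; omega)
        nlinarith
      have hdiv : m / p < p * m := (Nat.div_le_self m p).trans_lt hm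
      have := hrel p hp m
      rw [ih m hm] at this
      by_cases hpm : p ∣ m
      · rw [if_pos hpm, ih _ hdiv] at this; simpa using this
      · rw [if_neg hpm] at this; simpa using this

theorem heckeRel_mul_of_coprime (h0 : a 0 = 0) (h1 : a 1 = 1)
    (hrel : ∀ ℓ : ℕ, ℓ.Prime → ∀ n : ℕ,
      a (ℓ * n) + e ℓ * (if ℓ ∣ n then a (n / ℓ) else 0) = a ℓ * a n) :
    ∀ m n : ℕ, m.Coprime n → a (m * n) = a m * a n := by
  intro m
  induction m using Nat.strong_induction_on with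
  | _ m ih =>
    intro n hmn
    rcases Nat.lt_or_ge m 2 with hm | hm
    · interval_cases m <;> simp [h0, h1]
    · obtain ⟨p, hp, m', rfl⟩ := Nat.exists_prime_and_dvd (show m ≠ 1 by omega)
      have hm' : m' < p * m' := by
        have := hp.two_le
        have : 0 < m' := Nat.pos_of_ne_zero (by rintro rfl; omega)
        nlinarith
      have hpn : p.Coprime n := hmn.coprime_dvd_left (dvd_mul_right p m')
      have hm'n : m'.Coprime n := hmn.coprime_dvd_left (dvd_mul_left m' p)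
      have hiff : p ∣ m' * n ↔ p ∣ m' :=
        ⟨fun h => hpn.dvd_of_dvd_mul_right h, fun h => h.mul_right n⟩
      have e1 := hrel p hp m'
      have e2 := hrel p hp (m' * n)
      rw [ih m' hm' n hm'n] at e2
      by_cases hpm : p ∣ m'
      · rw [if_pos hpm] at e1
        rw [if_pos (hiff.2 hpm), Nat.mul_comm m' n, Nat.mul_div_assoc n hpm, Nat.mul_comm n,
          Nat.mul_comm n (m' / p),
          ih (m' / p) ((Nat.div_le_self m' p).trans_lt hm') n
            (hm'n.coprime_dvd_left (Nat.div_dvd_of_dvd hpm))] at e2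
        rw [mul_assoc]
        linear_combination e2 - a n * e1
      · rw [if_neg hpm] at e1
        rw [if_neg (mt hiff.1 hpm)] at e2
        rw [mul_assoc]
        linear_combination e2 - a n * e1

theorem heckeRel_prime_pow
    (hrel : ∀ ℓ : ℕ, ℓ.Prime → ∀ n : ℕ,
      a (ℓ * n) + e ℓ * (if ℓ ∣ n then a (n / ℓ) else 0) = a ℓ * a n)
    (p r : ℕ) (hp : p.Prime) :
    a (p ^ (r + 2)) = a p * a (p ^ (r + 1)) - e p * a (p ^ r) := by
  have h := hrel p hp (p ^ (r + 1))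
  rw [if_pos (dvd_pow_self p r.succ_ne_zero), ← pow_succ', pow_succ p r,
    Nat.mul_div_cancel _ hp.pos] at h
  rw [pow_succ p r]
  linear_combination h

end Recursion

section Algebra

variable {N : ℕ} [NeZero N] {S : Set ℕ}

theorem finiteDimensional_of_hasIntegralStructure {k : ℤ}
    (hint : CuspForm.HasIntegralStructure N k) :
    FiniteDimensional ℂ (CuspForm (Gamma0 N) k) := by
  obtain ⟨s, hs⟩ := CuspForm.intLattice_fg N k
  refine ⟨⟨s, ?_⟩⟩
  have h : Submodule.span ℂ ((Submodule.span ℤ (s : Set (CuspForm (Gamma0 N) k)) : Submodule ℤ _) :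
      Set (CuspForm (Gamma0 N) k)) = ⊤ := hs.symm ▸ hint
  simpa [Submodule.span_span_of_tower] using h

theorem heckeAlgebra_algebraIsIntegral (hint : CuspForm.HasIntegralStructure N 2) :
    Algebra.IsIntegral ℤ ↥(CuspForm.heckeAlgebra N 2 S) := by
  constructor
  intro t
  haveI := CuspForm.intLattice.moduleFinite N
  haveI := CuspForm.intLattice.moduleFree N
  exact (isIntegral_algHom_iff (CuspForm.latticeActionHom N S).toIntAlgHom
    (CuspForm.latticeActionHom_injective N S hint)).1 (Algebra.IsIntegral.isIntegral _)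

/-- Every maximal ideal of the weight-2 Hecke algebra is cut out, through some maximal ideal of
the ring of algebraic integers, by the eigencharacter of some nonzero form. -/
theorem exists_eigenchar_lift_maximal (hint : CuspForm.HasIntegralStructure N 2)
    (M : Ideal ↥(CuspForm.heckeAlgebra N 2 S)) [M.IsMaximal] :
    ∃ (v : CuspForm (Gamma0 N) 2)
      (χ : ↥(CuspForm.heckeAlgebra N 2 S) →+* integralClosure ℤ ℂ)
      (𝔪 : Ideal (integralClosure ℤ ℂ)),
      v ≠ 0 ∧ (∀ t : ↥(CuspForm.heckeAlgebra N 2 S), (t : Module.End ℂ (CuspForm (Gamma0 N) 2)) v = (χ t : ℂ) • v) ∧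
      𝔪.IsMaximal ∧ 𝔪.comap χ = M := by
  haveI := finiteDimensional_of_hasIntegralStructure hint
  haveI := heckeAlgebra_algebraIsIntegral (S := S) hint
  obtain ⟨P, hP, hPM⟩ := Ideal.exists_minimalPrimes_le (bot_le : ⊥ ≤ M)
  haveI : P.IsPrime := hP.1.1
  let ρ : ↥(CuspForm.heckeAlgebra N 2 S) →+* Module.End ℂ (CuspForm (Gamma0 N) 2) :=
    (CuspForm.heckeAlgebra N 2 S).val.toRingHom
  obtain ⟨v, χ₀, hv, heig, hker⟩ := exists_eigenchar_ker_le ρ P
    (fun t ht => by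
      have : t = 0 := Subtype.ext ht
      rw [this]; exact P.zero_mem)
  let χ : ↥(CuspForm.heckeAlgebra N 2 S) →+* integralClosure ℤ ℂ :=
    χ₀.codRestrict (integralClosure ℤ ℂ).toSubring
      (fun t => (Algebra.IsIntegral.isIntegral (R := ℤ) t).map χ₀.toIntAlgHom)
  letI := χ.toAlgebra
  haveI : Algebra.IsIntegral ↥(CuspForm.heckeAlgebra N 2 S) (integralClosure ℤ ℂ) :=
    Algebra.IsIntegral.tower_top ℤ
  have hkχ : RingHom.ker (algebraMap ↥(CuspForm.heckeAlgebra N 2 S) (integralClosure ℤ ℂ)) ≤ M :=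
    fun t ht => hPM (hker (congrArg Subtype.val (show χ t = 0 from ht)))
  obtain ⟨𝔪, h𝔪, hcomap⟩ := Ideal.exists_ideal_over_maximal_of_isIntegral M hkχ
  exact ⟨v, χ, 𝔪, hv, heig, h𝔪, hcomap⟩

theorem exists_normalizedEigenform_of_eigenchar (v : CuspForm (Gamma0 N) 2) (hv : v ≠ 0)
    (χ : ↥(CuspForm.heckeAlgebra N 2 (∅ : Set ℕ)) →+* ℂ)
    (heig : ∀ t : ↥(CuspForm.heckeAlgebra N 2 (∅ : Set ℕ)), (t : Module.End ℂ (CuspForm (Gamma0 N) 2)) v = χ t • v) :
    ∃ f : CuspForm (Gamma0 N) 2, f.IsNormalizedEigenform ∧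
      (∀ t : ↥(CuspForm.heckeAlgebra N 2 (∅ : Set ℕ)), (t : Module.End ℂ (CuspForm (Gamma0 N) 2)) f = χ t • f) ∧
      (∀ (ℓ : ℕ) (hℓ : ℓ.Prime) (hℓN : ¬ ℓ ∣ N),
        qCoeff ⇑f ℓ = χ (CuspForm.heckeAlgebra.T hℓ hℓN (Set.notMem_empty ℓ))) ∧
      (∀ (q : ℕ) (hq : q.Prime) (hqN : q ∣ N),
        qCoeff ⇑f q = χ (CuspForm.heckeAlgebra.U hq hqN (Set.notMem_empty q))) := by
  let e : ℕ → ℂ := fun ℓ => if ℓ ∣ N then 0 else (ℓ : ℂ)
  let c : ℕ → ℂ := fun ℓ =>
    if hℓ : ℓ.Prime then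
      (if hN : ℓ ∣ N then χ (CuspForm.heckeAlgebra.U hℓ hN (Set.notMem_empty ℓ))
        else χ (CuspForm.heckeAlgebra.T hℓ hN (Set.notMem_empty ℓ)))
    else 0
  have key : ∀ g : CuspForm (Gamma0 N) 2,
      (∀ t : ↥(CuspForm.heckeAlgebra N 2 (∅ : Set ℕ)), (t : Module.End ℂ (CuspForm (Gamma0 N) 2)) g = χ t • g) →
      ∀ ℓ : ℕ, ℓ.Prime → ∀ n : ℕ, qCoeff ⇑g (ℓ * n) +
        e ℓ * (if ℓ ∣ n then qCoeff ⇑g (n / ℓ) else 0) = c ℓ * qCoeff ⇑g n := by
    intro g hg ℓ hℓ n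
    by_cases hN : ℓ ∣ N
    · have h := congrArg (fun x : CuspForm (Gamma0 N) 2 => qCoeff ⇑x n)
        (hg (CuspForm.heckeAlgebra.U hℓ hN (Set.notMem_empty ℓ)))
      simp only [CuspForm.heckeAlgebra.coe_U, qCoeff_cusp_smul,
        qCoeff_heckeULin_apply hℓ hN] at h
      simp only [e, c, dif_pos hℓ, if_pos hN, dif_pos hN, zero_mul, add_zero]
      rw [Nat.mul_comm, h]
    · have h := congrArg (fun x : CuspForm (Gamma0 N) 2 => qCoeff ⇑x n)
        (hg (CuspForm.heckeAlgebra.T hℓ hN (Set.notMem_empty ℓ)))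
      simp only [CuspForm.heckeAlgebra.coe_T, qCoeff_cusp_smul,
        qCoeff_heckeTLin_two hℓ hN] at h
      simp only [e, c, dif_pos hℓ, if_neg hN, dif_neg hN, mul_ite, mul_zero]
      rw [Nat.mul_comm, h]
  have h1 : qCoeff ⇑v 1 ≠ 0 := fun h => hv (cusp_eq_zero_of_qCoeff_eq_zero v
    (heckeRel_eq_zero (qCoeff_cusp_zero_index v) h (key v heig)))
  set f := (qCoeff ⇑v 1)⁻¹ • v with hf
  have hf1 : qCoeff ⇑f 1 = 1 := by rw [hf, qCoeff_cusp_smul, inv_mul_cancel₀ h1]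
  have hfeig : ∀ t : ↥(CuspForm.heckeAlgebra N 2 (∅ : Set ℕ)), (t : Module.End ℂ (CuspForm (Gamma0 N) 2)) f = χ t • f := fun t => by
    rw [hf, map_smul, heig, smul_comm]
  have hc : ∀ ℓ : ℕ, ℓ.Prime → qCoeff ⇑f ℓ = c ℓ := fun ℓ hℓ => by
    simpa [hℓ.ne_one, hf1] using key f hfeig ℓ hℓ 1
  have hrel : ∀ ℓ : ℕ, ℓ.Prime → ∀ n : ℕ, qCoeff ⇑f (ℓ * n) +
      e ℓ * (if ℓ ∣ n then qCoeff ⇑f (n / ℓ) else 0) = qCoeff ⇑f ℓ * qCoeff ⇑f n :=
    fun ℓ hℓ n => by rw [hc ℓ hℓ]; exact key f hfeig ℓ hℓ n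
  refine ⟨f, ⟨hf1, heckeRel_mul_of_coprime (qCoeff_cusp_zero_index f) hf1 hrel, ?_, ?_⟩,
    hfeig, ?_, ?_⟩
  · intro p r hp hpN
    have := heckeRel_prime_pow hrel p r hp
    simpa [e, if_neg hpN] using this
  · intro p r hp hpN
    have := heckeRel_prime_pow hrel p r hp
    simpa [e, if_pos hpN] using this
  · intro ℓ hℓ hℓN
    rw [hc ℓ hℓ]; simp only [c, dif_pos hℓ, dif_neg hℓN]
  · intro q hq hqN
    rw [hc q hq]; simp only [c, dif_pos hq, dif_pos hqN]

/-- Every maximal ideal of the full weight-2 Hecke algebra comes from a normalised eigenform and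
a maximal ideal of the ring of algebraic integers. -/
theorem exists_normalizedEigenform_lift_maximal (hint : CuspForm.HasIntegralStructure N 2)
    (M : Ideal ↥(CuspForm.heckeAlgebra N 2 (∅ : Set ℕ))) [M.IsMaximal] :
    ∃ (f : CuspForm (Gamma0 N) 2)
      (χ : ↥(CuspForm.heckeAlgebra N 2 (∅ : Set ℕ)) →+* integralClosure ℤ ℂ)
      (𝔪 : Ideal (integralClosure ℤ ℂ)),
      f.IsNormalizedEigenform ∧ 𝔪.IsMaximal ∧ 𝔪.comap χ = M ∧
      (∀ t : ↥(CuspForm.heckeAlgebra N 2 (∅ : Set ℕ)), (t : Module.End ℂ (CuspForm (Gamma0 N) 2)) f = (χ t : ℂ) • f) ∧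
      (∀ (ℓ : ℕ) (hℓ : ℓ.Prime) (hℓN : ¬ ℓ ∣ N),
        (χ (CuspForm.heckeAlgebra.T hℓ hℓN (Set.notMem_empty ℓ)) : ℂ) = qCoeff ⇑f ℓ) ∧
      (∀ (q : ℕ) (hq : q.Prime) (hqN : q ∣ N),
        (χ (CuspForm.heckeAlgebra.U hq hqN (Set.notMem_empty q)) : ℂ) = qCoeff ⇑f q) := by
  obtain ⟨v, χ, 𝔪, hv, heig, h𝔪, hcomap⟩ := exists_eigenchar_lift_maximal hint M
  obtain ⟨f, hf, hfe, hT, hU⟩ := exists_normalizedEigenform_of_eigenchar v hv
    ((integralClosure ℤ ℂ).val.toRingHom.comp χ) heig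
  exact ⟨f, χ, 𝔪, hf, h𝔪, hcomap, hfe, fun ℓ h h' => (hT ℓ h h').symm,
    fun q h h' => (hU q h h').symm⟩

end Algebra

end FermatLib.Basic
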