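import Mathlib
import Fermat.Prelude.Def_FLTPrelim_FreyPackage
import Fermat.Prelude.Def_FLTPrelim_Modularity
import Fermat.Prelude.Def_FLTPrelim_ModularRep
import Fermat.Prelude.Def_WeierstrassCurve_PeuRamifiee

/-!
# Elementary facts on the Frey curve

The integral model `P.freyCurveInt`, its invariants, and semistability.
-/

set_option autoImplicit false

namespace FermatLib.Basic.Frey

variable (P : FreyPackage)

lemma sixteen_dvd_b_pow : (16 : ℤ) ∣ P.b ^ P.p := by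
  have h2 : (2 : ℤ) ∣ P.b := (ZMod.intCast_zmod_eq_zero_iff_dvd P.b 2).1 P.hb2
  have : (2 : ℤ) ^ P.p ∣ P.b ^ P.p := pow_dvd_pow_of_dvd h2 _
  refine dvd_trans ?_ this
  exact (show (16 : ℤ) = 2 ^ 4 by norm_num) ▸ pow_dvd_pow 2 (by have := P.hp5; omega)

lemma a_pow_emod_four : (4 : ℤ) ∣ P.a ^ P.p + 1 := by
  have h : ((P.a ^ P.p + 1 : ℤ) : ZMod 4) = 0 := by
    push_cast
    rw [P.ha4, show (3 : ZMod 4) = -1 by decide, P.hp_odd.neg_one_pow]
    decide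
  exact (ZMod.intCast_zmod_eq_zero_iff_dvd _ 4).1 h

lemma four_dvd_a₂_num : (4 : ℤ) ∣ P.b ^ P.p - 1 - P.a ^ P.p := by
  have h1 : (4 : ℤ) ∣ P.b ^ P.p := dvd_trans (by norm_num) (sixteen_dvd_b_pow P)
  have h2 := a_pow_emod_four P
  omega

lemma sixteen_dvd_a₄_num : (16 : ℤ) ∣ -(P.a ^ P.p) * P.b ^ P.p :=
  dvd_mul_of_dvd_right (sixteen_dvd_b_pow P) _

lemma four_mul_a₂ : 4 * P.freyCurveInt.a₂ = P.b ^ P.p - 1 - P.a ^ P.p :=
  Int.mul_ediv_cancel' (four_dvd_a₂_num P)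

lemma sixteen_mul_a₄ : 16 * P.freyCurveInt.a₄ = -(P.a ^ P.p) * P.b ^ P.p :=
  Int.mul_ediv_cancel' (sixteen_dvd_a₄_num P)

/-- The integral model has base change equal to the Frey curve. -/
theorem map_freyCurveInt : P.freyCurveInt.map (Int.castRingHom ℚ) = P.freyCurve := by
  have h2 : (P.freyCurveInt.a₂ : ℚ) = ((P.b : ℚ) ^ P.p - 1 - (P.a : ℚ) ^ P.p) / 4 := by
    rw [eq_div_iff (by norm_num), mul_comm]
    exact_mod_cast four_mul_a₂ P
  have h4 : (P.freyCurveInt.a₄ : ℚ) = -((P.a : ℚ) ^ P.p) * (P.b : ℚ) ^ P.p / 16 := by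
    rw [eq_div_iff (by norm_num), mul_comm]
    exact_mod_cast sixteen_mul_a₄ P
  ext
  · simp [FreyPackage.freyCurveInt, FreyPackage.freyCurve]
  · simpa [FreyPackage.freyCurve] using h2
  · simp [FreyPackage.freyCurveInt, FreyPackage.freyCurve]
  · simpa [FreyPackage.freyCurve] using h4
  · simp [FreyPackage.freyCurveInt, FreyPackage.freyCurve]

theorem isIntegralModelOf_freyCurveInt : P.freyCurveInt.IsIntegralModelOf P.freyCurve :=
  ⟨1, by rw [one_smul, map_freyCurveInt P]⟩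

theorem freyCurveInt_c₄ :
    P.freyCurveInt.c₄ = (P.a ^ P.p) ^ 2 + P.a ^ P.p * P.b ^ P.p + (P.b ^ P.p) ^ 2 := by
  have h2 := four_mul_a₂ P
  have h4 := sixteen_mul_a₄ P
  simp only [WeierstrassCurve.c₄, WeierstrassCurve.b₂, WeierstrassCurve.b₄]
  rw [show P.freyCurveInt.a₁ = 1 from rfl, show P.freyCurveInt.a₃ = 0 from rfl]
  linear_combination (4 * P.freyCurveInt.a₂ + 2 + P.b ^ P.p - 1 - P.a ^ P.p) * h2 - 3 * h4

theorem freyCurveInt_Δ : 256 * P.freyCurveInt.Δ = (P.a * P.b * P.c) ^ (2 * P.p) := by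
  have h2 := four_mul_a₂ P
  have h4 := sixteen_mul_a₄ P
  have hΔ : P.freyCurveInt.Δ =
      P.freyCurveInt.a₄ ^ 2 * ((1 + 4 * P.freyCurveInt.a₂) ^ 2 - 64 * P.freyCurveInt.a₄) := by
    simp only [WeierstrassCurve.Δ, WeierstrassCurve.b₂, WeierstrassCurve.b₄, WeierstrassCurve.b₆,
      WeierstrassCurve.b₈]
    rw [show P.freyCurveInt.a₁ = 1 from rfl, show P.freyCurveInt.a₃ = 0 from rfl,
      show P.freyCurveInt.a₆ = 0 from rfl]
    ring
  rw [pow_mul', mul_pow, mul_pow, ← P.hFLT, hΔ]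
  have : (256 : ℤ) * (P.freyCurveInt.a₄ ^ 2 *
      ((1 + 4 * P.freyCurveInt.a₂) ^ 2 - 64 * P.freyCurveInt.a₄)) =
      (16 * P.freyCurveInt.a₄) ^ 2 *
        ((1 + 4 * P.freyCurveInt.a₂) ^ 2 - 4 * (16 * P.freyCurveInt.a₄)) := by ring
  rw [this, h2, h4]
  ring

theorem freyCurveInt_Δ_ne_zero : P.freyCurveInt.Δ ≠ 0 := by
  intro h
  have := freyCurveInt_Δ P
  rw [h, mul_zero] at this
  exact P.habc0 (eq_zero_of_pow_eq_zero this.symm)

theorem dvd_abc_of_dvd_Δ {q : ℕ} (hq : q.Prime) (h : (q : ℤ) ∣ P.freyCurveInt.Δ) :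
    (q : ℤ) ∣ P.a * P.b * P.c := by
  have : (q : ℤ) ∣ (P.a * P.b * P.c) ^ (2 * P.p) := by
    rw [← freyCurveInt_Δ P]; exact dvd_mul_of_dvd_right h _
  exact (Nat.prime_iff_prime_int.1 hq).dvd_of_dvd_pow this

theorem dvd_Δ_of_dvd_abc {q : ℕ} (hq : q.Prime) (hq2 : q ≠ 2)
    (h : (q : ℤ) ∣ P.a * P.b * P.c) : (q : ℤ) ∣ P.freyCurveInt.Δ := by
  have hqP := Nat.prime_iff_prime_int.1 hq
  have : (q : ℤ) ∣ 256 * P.freyCurveInt.Δ := by
    rw [freyCurveInt_Δ P]; exact dvd_pow h (by have := P.hppos; omega)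
  rcases hqP.dvd_or_dvd this with h' | h'
  · refine absurd ?_ hq2
    have h'' : q ∣ 256 := by exact_mod_cast h'
    exact (Nat.prime_dvd_prime_iff_eq hq Nat.prime_two).1
      (hq.dvd_of_dvd_pow (show q ∣ 2 ^ 8 by norm_num; exact h''))
  · exact h'

theorem isCoprime_ab : IsCoprime P.a P.b :=
  (gcd_isUnit_iff _ _).1 (P.hgcdab ▸ isUnit_one)

theorem not_dvd_freyCurveInt_c₄ {q : ℕ} (hq : q.Prime) (h : (q : ℤ) ∣ P.a * P.b * P.c) :
    ¬ (q : ℤ) ∣ P.freyCurveInt.c₄ := by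
  rw [freyCurveInt_c₄ P]
  intro hc
  have hqP := Nat.prime_iff_prime_int.1 hq
  set A := P.a ^ P.p with hA
  set B := P.b ^ P.p with hB
  have hAB : IsCoprime A B := (isCoprime_ab P).pow
  have key : ∀ X Y : ℤ, IsCoprime X Y → (q : ℤ) ∣ X → ¬ (q : ℤ) ∣ Y ^ 2 := fun X Y hXY hX hY =>
    hqP.not_isUnit (hXY.isUnit_of_dvd' hX (hqP.dvd_of_dvd_pow hY))
  rcases hqP.dvd_or_dvd h with h' | h'
  · rcases hqP.dvd_or_dvd h' with ha | hb
    · have hqA : (q : ℤ) ∣ A := dvd_pow ha P.hp0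
      refine key A B hAB hqA ?_
      have : B ^ 2 = (A ^ 2 + A * B + B ^ 2) - A * (A + B) := by ring
      rw [this]; exact dvd_sub hc (dvd_mul_of_dvd_left hqA _)
    · have hqB : (q : ℤ) ∣ B := dvd_pow hb P.hp0
      refine key B A hAB.symm hqB ?_
      have : A ^ 2 = (A ^ 2 + A * B + B ^ 2) - B * (A + B) := by ring
      rw [this]; exact dvd_sub hc (dvd_mul_of_dvd_left hqB _)
  · have hqC : (q : ℤ) ∣ A + B := by
      rw [hA, hB, P.hFLT]; exact dvd_pow h' P.hp0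
    have hA2 : (q : ℤ) ∣ A ^ 2 := by
      have : A ^ 2 = (A ^ 2 + A * B + B ^ 2) - B * (A + B) := by ring
      rw [this]; exact dvd_sub hc (dvd_mul_of_dvd_right hqC _)
    have hqA : (q : ℤ) ∣ A := hqP.dvd_of_dvd_pow hA2
    have hqB : (q : ℤ) ∣ B := (dvd_add_right hqA).1 hqC
    exact key A B hAB hqA (dvd_pow hqB two_ne_zero)

theorem freyCurveInt_isSemistableModel : P.freyCurveInt.IsSemistableModel :=
  fun _ hq h => not_dvd_freyCurveInt_c₄ P hq (dvd_abc_of_dvd_Δ P hq h)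

theorem freyCurve_Δ : P.freyCurve.Δ = (P.freyCurveInt.Δ : ℚ) := by
  rw [← map_freyCurveInt P, WeierstrassCurve.map_Δ, eq_intCast]

theorem freyCurve_Δ_ne_zero : P.freyCurve.Δ ≠ 0 := by
  rw [freyCurve_Δ P]; exact_mod_cast freyCurveInt_Δ_ne_zero P

theorem freyCurve_isElliptic : P.freyCurve.IsElliptic :=
  ⟨(isUnit_iff_ne_zero).2 (freyCurve_Δ_ne_zero P)⟩

/-- Away from 2 the discriminant valuation of the Frey curve is `2p` times that of `abc`. -/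
theorem padicValRat_Δ {q : ℕ} (hq : q.Prime) (hq2 : q ≠ 2) :
    padicValRat q P.freyCurve.Δ = 2 * P.p * padicValRat q (P.a * P.b * P.c : ℤ) := by
  have : Fact q.Prime := ⟨hq⟩
  have h256 : padicValRat q (256 : ℚ) = 0 := by
    rw [show (256 : ℚ) = ((2 ^ 8 : ℕ) : ℚ) by norm_num, padicValRat.of_nat]
    simp only [Nat.cast_eq_zero]
    exact padicValNat.eq_zero_of_not_dvd fun h =>
      hq2 ((Nat.prime_dvd_prime_iff_eq hq Nat.prime_two).1 (hq.dvd_of_dvd_pow h))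
  have hD := congrArg (Int.cast : ℤ → ℚ) (freyCurveInt_Δ P)
  rw [Int.cast_mul, Int.cast_pow, ← freyCurve_Δ P] at hD
  have h := congrArg (padicValRat q) hD
  rw [padicValRat.mul (by norm_num) (freyCurve_Δ_ne_zero P), padicValRat.pow] at h
  norm_num [h256] at h
  rw [h]
  push_cast
  ring

end FermatLib.Basic.Frey
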