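import Mathlib
import Fermat.Prelude.Thm_ModularForm_sturm_bound_Gamma0
import Fermat.Prelude.Thm_CongruenceSubgroup_one_mem_strictPeriods_Gamma0

/-!
Vanishing of weight-2 cusp forms for `Γ₀(N)` when the index is small, via the Sturm bound.
-/

set_option autoImplicit false

open UpperHalfPlane
open scoped MatrixGroups

namespace FermatLib.Basic

/-- The index of `Γ₀(N)` in `SL(2, ℤ)` is at most `N ^ 2`: a left coset is determined by the
reduction mod `N` of the first column of any of its elements. -/
theorem index_Gamma0_le_sq (N : ℕ) [NeZero N] :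
    (CongruenceSubgroup.Gamma0 N).index ≤ N * N := by
  let F : SL(2, ℤ) ⧸ CongruenceSubgroup.Gamma0 N → ZMod N × ZMod N := fun q ↦
    ((q.out 0 0 : ℤ), (q.out 1 0 : ℤ))
  have hF : Function.Injective F := by
    intro x y h
    obtain ⟨h0, h1⟩ := Prod.ext_iff.mp h
    rw [← QuotientGroup.out_eq' x, ← QuotientGroup.out_eq' y, QuotientGroup.eq,
      CongruenceSubgroup.Gamma0_mem]
    simp only [F] at h0 h1
    have e : ((x.out)⁻¹ * y.out) 1 0
        = x.out 0 0 * y.out 1 0 - x.out 1 0 * y.out 0 0 := by
      simp [Matrix.SpecialLinearGroup.SL2_inv_expl, Matrix.mul_apply, Fin.sum_univ_two]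
      ring
    rw [e]
    push_cast
    rw [h0, h1]
    ring
  calc (CongruenceSubgroup.Gamma0 N).index
      = Nat.card (SL(2, ℤ) ⧸ CongruenceSubgroup.Gamma0 N) := rfl
    _ ≤ Nat.card (ZMod N × ZMod N) := Nat.card_le_card_of_injective F hF
    _ = N * N := by rw [Nat.card_prod, Nat.card_zmod]

/-- A weight-2 cusp form of level `Γ₀(N)` vanishes if `N * N < 6`. -/
theorem cuspForm_two_Gamma0_eq_zero (N : ℕ) [NeZero N] (hN : N * N < 6)
    (f : CuspForm (CongruenceSubgroup.Gamma0 N) 2) : f = 0 := by
  have h1 : (1 : ℝ) ∈ (CongruenceSubgroup.Gamma0 N : Subgroup (GL (Fin 2) ℝ)).strictPeriods :=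
    CongruenceSubgroup.one_mem_strictPeriods_Gamma0 N
  have hg : (f : ModularForm (CongruenceSubgroup.Gamma0 N) 2) = 0 := by
    apply ModularForm.sturm_bound_Gamma0 N
    intro n hn
    have hi := index_Gamma0_le_sq N
    have hn0 : n = 0 := by
      have : ((2 : ℤ) * (CongruenceSubgroup.Gamma0 N).index).toNat < 12 := by omega
      rw [Nat.div_eq_of_lt this] at hn
      omega
    subst hn0
    exact CuspFormClass.qExpansion_coeff_zero f one_pos h1
  ext z
  have := DFunLike.congr_fun hg z
  exact this

end FermatLib.Basic
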