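import Fermat.Agent.Basic.FreyModularity
import Fermat.Agent.Basic.SmallLevelCusp
import Fermat.Agent.EC.Frey05Frey
import Fermat.Prelude.Def_WeierstrassCurve_PeuRamifiee

/-!
# Level lowering of the Frey curve to level two

The three steps of level lowering, stated on the integral model `P.freyCurveInt`: Mazur's principle
at `p`, Mazur's principle at `q` not congruent to 1 mod `p`, and avoidance of the remaining primes
at once. `exists_cuspForm_two_of_lowering` combines them.
-/

set_option autoImplicit false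

open WeierstrassCurve WeierstrassCurve.Affine WeierstrassCurve.Affine.Point
open scoped WeierstrassCurve.Affine
open FreyPackage

namespace FermatLib.Basic

/-- Residual modularity of the integral Frey model at level `M`. -/
abbrev FreyResModular (P : FreyPackage) (M : ℕ) : Prop :=
  P.freyCurveInt.IsResiduallyModularOfLevel P.p M

/-- Mazur principle at `p` for the Frey curve. -/
def MazurLoweringAtP : Prop :=
  ∀ (P : FreyPackage), P.freyCurveInt.ModRepIsIrreducible P.p →
    ∀ M : ℕ, P.IsConductorLevel M → P.p ∣ M → FreyResModular P M →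
      ∃ M' : ℕ, M' ∣ M ∧ ¬ P.p ∣ M' ∧ FreyResModular P M'

/-- Mazur principle at an odd prime `q ≠ p`, `q` not congruent to 1 mod `p`. -/
def MazurLoweringAway : Prop :=
  ∀ (P : FreyPackage), P.freyCurveInt.ModRepIsIrreducible P.p →
    ∀ M q : ℕ, P.IsConductorLevel M → ¬ P.p ∣ M → q.Prime → q ≠ 2 → q ∣ M →
      ¬ q ≡ 1 [MOD P.p] → P.GaloisRepUnramifiedAt q → FreyResModular P M →
      ∃ M' : ℕ, M' ∣ M ∧ ¬ q ∣ M' ∧ FreyResModular P M'

/-- Avoidance: all remaining odd primes of the level are congruent to 1 mod `p`, remove them. -/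
def AvoidanceLowering : Prop :=
  ∀ (P : FreyPackage), P.freyCurveInt.ModRepIsIrreducible P.p →
    ∀ M : ℕ, P.IsConductorLevel M →
      (∀ q : ℕ, q.Prime → q ∣ M → q ≠ 2 →
        q ≡ 1 [MOD P.p] ∧ P.GaloisRepUnramifiedAt q) →
      FreyResModular P M → ∃ M' : ℕ, M' ∣ M ∧ M' ∣ 2 ∧ FreyResModular P M'

/-- Remove every odd prime not congruent to 1 mod `p`. -/
theorem exists_level_all_one_mod (hq : MazurLoweringAway) (P : FreyPackage)
    (hirr : P.freyCurveInt.ModRepIsIrreducible P.p) :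
    ∀ M : ℕ, P.IsConductorLevel M → ¬ P.p ∣ M → FreyResModular P M →
      ∃ M' : ℕ, M' ∣ M ∧ P.IsConductorLevel M' ∧ FreyResModular P M' ∧
        ∀ q : ℕ, q.Prime → q ∣ M' → q ≠ 2 →
          q ≡ 1 [MOD P.p] ∧ P.GaloisRepUnramifiedAt q := by
  intro M
  induction M using Nat.strong_induction_on with
  | _ M ih =>
    intro hcond hpM hmod
    have hunr : ∀ q : ℕ, q.Prime → q ∣ M → q ≠ 2 → P.GaloisRepUnramifiedAt q :=
      fun q hqp hqM hq2 => EC.Frey05.frey_unramified P hqp hq2 fun h => hpM (h ▸ hqM)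
    by_cases h : ∃ q : ℕ, q.Prime ∧ q ∣ M ∧ q ≠ 2 ∧ ¬ q ≡ 1 [MOD P.p]
    · obtain ⟨q, hqP, hqM, hq2, hq1⟩ := h
      obtain ⟨M', hM'M, hqM', hmod'⟩ :=
        hq P hirr M q hcond hpM hqP hq2 hqM hq1 (hunr q hqP hqM hq2) hmod
      have hlt : M' < M :=
        lt_of_le_of_ne (Nat.le_of_dvd hcond.pos hM'M) fun h => hqM' (h.symm ▸ hqM)
      obtain ⟨M'', hdvd, rest⟩ := ih M' hlt
        (hcond.of_dvd hM'M (Nat.pos_of_dvd_of_pos hM'M hcond.pos))
        (fun h => hpM (h.trans hM'M)) hmod'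
      exact ⟨M'', hdvd.trans hM'M, rest⟩
    · push Not at h
      exact ⟨M, dvd_rfl, hcond, hmod, fun q hqP hqM hq2 => ⟨h q hqP hqM hq2, hunr q hqP hqM hq2⟩⟩

/-- A nonzero cusp form from residual modularity at a level dividing two. -/
theorem exists_cuspForm_two_of_level_dvd_two (P : FreyPackage) {M : ℕ} (hM : M ∣ 2)
    (h : FreyResModular P M) : ∃ f : CuspForm (CongruenceSubgroup.Gamma0 2) 2, f ≠ 0 := by
  obtain ⟨f, _, hf, -⟩ := h
  rcases (Nat.dvd_prime Nat.prime_two).1 hM with rfl | rfl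
  · exact absurd (cuspForm_two_Gamma0_eq_zero 1 (by norm_num) f) hf.ne_zero
  · exact ⟨f, hf.ne_zero⟩

/-- The three steps give a nonzero cusp form of weight 2 and level 2. -/
theorem exists_cuspForm_two_of_lowering (hp : MazurLoweringAtP) (hq : MazurLoweringAway)
    (hav : AvoidanceLowering) (P : FreyPackage)
    (hirr : P.freyCurveInt.ModRepIsIrreducible P.p)
    (hmod : ∃ N : ℕ, P.IsConductorLevel N ∧ FreyResModular P N) :
    ∃ f : CuspForm (CongruenceSubgroup.Gamma0 2) 2, f ≠ 0 := by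
  obtain ⟨N, hcond, hN⟩ := hmod
  obtain ⟨N', hcond', hpN', hN'⟩ : ∃ N', P.IsConductorLevel N' ∧ ¬ P.p ∣ N' ∧
      FreyResModular P N' := by
    by_cases hpN : P.p ∣ N
    · obtain ⟨M, hMN, hpM, hM⟩ := hp P hirr N hcond hpN hN
      exact ⟨M, hcond.of_dvd hMN (Nat.pos_of_dvd_of_pos hMN hcond.pos), hpM, hM⟩
    · exact ⟨N, hcond, hpN, hN⟩
  obtain ⟨M, -, hcondM, hM, hall⟩ := exists_level_all_one_mod hq P hirr N' hcond' hpN' hN'
  obtain ⟨M', -, hM2, hM'⟩ := hav P hirr M hcondM hall hM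
  exact exists_cuspForm_two_of_level_dvd_two P hM2 hM'

/-- Irreducibility of the Frey representation on the integral model. -/
theorem modRepIsIrreducible_freyCurveInt (P : FreyPackage) {n : ℕ}
    (h : GaloisRepIsIrreducible (K := AlgebraicClosure ℚ) ℚ P.freyCurve n) :
    P.freyCurveInt.ModRepIsIrreducible n := by
  rw [← Frey.map_freyCurveInt P] at h
  exact h

/-- A residual witness on the integral Frey model is one for the Frey package. -/
theorem modularRepOfLevel_of_freyResModular (P : FreyPackage) {M : ℕ} (h : FreyResModular P M) :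
    P.ModularRepOfLevel M := by
  obtain ⟨f, 𝔪, hf, hmax, hpm, hcong⟩ := h
  exact ⟨f, P.freyCurveInt, 𝔪, hf, Frey.isIntegralModelOf_freyCurveInt P, hmax, hpm, hcong⟩

end FermatLib.Basic
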