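import Fermat.Agent.Basic.FreyCurveFacts
import Fermat.Prelude.Def_FLTPrelim_Ramification
import Fermat.Prelude.Def_FreyPackage_IsConductorLevel
import Fermat.Prelude.Def_WeierstrassCurve_Mlc1RowStatement

/-!
# Consequences of modularity at the exact conductor

Modularity over `ℚ`, and for the Frey curve a conductor level with its residual modularity.
-/

set_option autoImplicit false

open WeierstrassCurve WeierstrassCurve.Affine WeierstrassCurve.Affine.Point
open scoped WeierstrassCurve.Affine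

namespace FermatLib.Basic

/-- A modular curve congruent mod `p` makes `W` residually modular at its level. -/
theorem isResiduallyModularOfLevel_of_congruent {W W' : WeierstrassCurve ℤ} {p N : ℕ}
    (hp : p.Prime) (hbad : ∀ q : ℕ, q.Prime → (q ∣ N ↔ (q : ℤ) ∣ W'.Δ))
    (hmod : W'.IsModularModelOfLevel N)
    (hcong : ∀ ℓ : ℕ, ℓ.Prime → W.IsGoodPrimeFor ℓ → W'.IsGoodPrimeFor ℓ → ℓ ≠ p →
      (p : ℤ) ∣ (W'.apOfModel ℓ - W.apOfModel ℓ)) :
    W.IsResiduallyModularOfLevel p N := by
  obtain ⟨f, hf, hap⟩ := hmod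
  obtain ⟨𝔪, hmax, hpm⟩ := FLTPrelim.exists_maximalIdeal_natCast_prime_mem hp
  refine ⟨f, 𝔪, hf, hmax, hpm, fun ℓ hℓ hgood hℓN hℓp => ?_⟩
  have hgood' : W'.IsGoodPrimeFor ℓ := fun h => hℓN ((hbad ℓ hℓ).2 h)
  refine ⟨(W'.apOfModel ℓ : integralClosure ℤ ℂ), by simp [hap ℓ hℓ hgood' hℓN], ?_⟩
  obtain ⟨k, hk⟩ := hcong ℓ hℓ hgood hgood' hℓp
  rw [← Int.cast_sub, hk, Int.cast_mul, Int.cast_natCast]
  exact 𝔪.mul_mem_right _ hpm

/-- Exact conductor modularity gives modularity over the rationals (S60 shape). -/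
theorem isModular_of_exactConductor {W : WeierstrassCurve ℤ}
    (h : Mlc1IsModularModelOfExactConductorLevel W) :
    (W.map (Int.castRingHom ℚ)).IsModular := by
  obtain ⟨N, hN, -, -, hmod⟩ := h
  exact ⟨W, ⟨1, one_smul _ _⟩, N, hN, hmod⟩

/-- S04 from exact conductor modularity of the integral Frey curve. -/
theorem freyIsModular_of_exactConductor (P : FreyPackage)
    (h : Mlc1IsModularModelOfExactConductorLevel P.freyCurveInt) : P.freyCurve.IsModular :=
  Frey.map_freyCurveInt P ▸ isModular_of_exactConductor h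

/-- A form attached to the integral model gives a residual witness at every prime. -/
theorem modularRepOfLevel_of_isModularModelOfLevel (P : FreyPackage) {W : WeierstrassCurve ℤ}
    {N : ℕ} (hW : W.IsIntegralModelOf P.freyCurve) (h : W.IsModularModelOfLevel N) :
    P.ModularRepOfLevel N := by
  obtain ⟨f, hf, hap⟩ := h
  obtain ⟨𝔪, hmax, hpm⟩ := FLTPrelim.exists_maximalIdeal_natCast_prime_mem P.pp
  refine ⟨f, W, 𝔪, hf, hW, hmax, hpm, fun ℓ hℓ hg hℓN _ => ?_⟩
  exact ⟨(W.apOfModel ℓ : integralClosure ℤ ℂ), by simp [hap ℓ hℓ hg hℓN], by simp⟩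

/-- S06 from exact conductor modularity of the integral Frey curve. -/
theorem freyConductorLevel_of_exactConductor (P : FreyPackage)
    (h : Mlc1IsModularModelOfExactConductorLevel P.freyCurveInt) :
    ∃ N : ℕ, P.IsConductorLevel N ∧ P.ModularRepOfLevel N := by
  obtain ⟨N, hN, hsq, hbad, hmod⟩ := h
  exact ⟨N, ⟨hN, hsq, fun q hq hqN => Frey.dvd_abc_of_dvd_Δ P hq ((hbad q hq).1 hqN)⟩,
    modularRepOfLevel_of_isModularModelOfLevel P (Frey.isIntegralModelOf_freyCurveInt P) hmod⟩

/-- Exact conductor modularity gives residual modularity of the integral Frey model. -/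
theorem freyResiduallyModular_of_exactConductor (P : FreyPackage)
    (h : Mlc1IsModularModelOfExactConductorLevel P.freyCurveInt) :
    ∃ N : ℕ, P.IsConductorLevel N ∧ P.freyCurveInt.IsResiduallyModularOfLevel P.p N := by
  obtain ⟨N, hN, hsq, hbad, hmod⟩ := h
  exact ⟨N, ⟨hN, hsq, fun q hq hqN => Frey.dvd_abc_of_dvd_Δ P hq ((hbad q hq).1 hqN)⟩,
    isResiduallyModularOfLevel_of_congruent P.pp hbad hmod fun _ _ _ _ _ => by simp⟩

end FermatLib.Basic
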