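import Fermat.Prelude.Def_EllipticCurve_FrobeniusTrace
import Mathlib.RingTheory.Valuation.LocalSubring
import Mathlib.RingTheory.Polynomial.Content
import Mathlib.RingTheory.Polynomial.UniqueFactorization
import Mathlib.RingTheory.Invariant.Profinite
import Mathlib.FieldTheory.Galois.Profinite
import Mathlib.FieldTheory.Galois.Infinite
import Mathlib.FieldTheory.IsAlgClosed.AlgebraicClosure
import Mathlib.Data.ZMod.QuotientRing

/-!
# Existence of Frobenius elements at places of `ℚ̄`
-/

set_option autoImplicit false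

open Polynomial
open scoped Pointwise

namespace FermatLib.Basic

local notation "Qbar" => AlgebraicClosure ℚ
local notation "Γℚ" => (AlgebraicClosure ℚ ≃ₐ[ℚ] AlgebraicClosure ℚ)
local notation "Zbar" => integralClosure ℤ (AlgebraicClosure ℚ)

local instance frobeniusExists_isAlgebraic : Algebra.IsAlgebraic ℚ Qbar :=
  AlgebraicClosure.isAlgebraic ℚ

local instance frobeniusExists_isGalois : IsGalois ℚ Qbar :=
  haveI : Normal ℚ Qbar := normal_iff.mpr fun x =>
    ⟨(Algebra.IsAlgebraic.isAlgebraic x).isIntegral, IsAlgClosed.splits _⟩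
  ⟨⟩

section Kronecker

variable {K : Type*} [Field K]

lemma valuationSubring_mem_of_isIntegral (V : ValuationSubring K) {x : K}
    (hx : IsIntegral ℤ x) : x ∈ V := by
  have h : IsIntegral V x := hx.tower_top
  obtain ⟨y, hy⟩ := IsIntegrallyClosed.isIntegral_iff.mp h
  exact hy ▸ y.2

lemma isIntegral_of_forall_valuationSubring {x : K} (hx : ∀ V : ValuationSubring K, x ∈ V) :
    IsIntegral ℤ x := by
  by_contra h
  have : x ∉ (integralClosure ℤ K).toSubring := h
  obtain ⟨V, -, hV⟩ := Subring.exists_le_valuationSubring_of_isIntegrallyClosedIn this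
  exact hV (hx V)

/-- Kronecker's lemma: the partial Horner sums of a relation are integral. -/
lemma isIntegral_aeval_divX_iterate {p : ℤ[X]} {x : K} (hp : aeval x p = 0) (k : ℕ) :
    IsIntegral ℤ (aeval x (divX^[k] p)) := by
  refine isIntegral_of_forall_valuationSubring fun V => ?_
  by_cases hxV : x ∈ V
  · generalize divX^[k] p = q
    induction q using Polynomial.induction_on' with
    | add a b ha hb => rw [map_add]; exact add_mem ha hb
    | monomial n c =>
      rw [aeval_monomial, eq_intCast]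
      exact mul_mem (intCast_mem V c) (pow_mem hxV n)
  · have hx0 : x ≠ 0 := fun h => hxV (h ▸ zero_mem V)
    have hinv : x⁻¹ ∈ V := (V.mem_or_inv_mem x).resolve_left hxV
    induction k with
    | zero => rw [Function.iterate_zero_apply, hp]; exact zero_mem V
    | succ k ih =>
      have hstep := congrArg (aeval x) (X_mul_divX_add (divX^[k] p))
      rw [map_add, map_mul, aeval_X, aeval_C, ← Function.iterate_succ_apply' divX k p,
        eq_intCast] at hstep
      have : aeval x (divX^[k + 1] p) =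
          x⁻¹ * (aeval x (divX^[k] p) - ((divX^[k] p).coeff 0 : ℤ)) := by
        rw [← hstep, add_sub_cancel_right, ← mul_assoc, inv_mul_cancel₀ hx0, one_mul]
      rw [this]
      exact mul_mem hinv (sub_mem ih (intCast_mem V _))

lemma coeff_divX_iterate {R : Type*} [Semiring R] (p : R[X]) (k i : ℕ) :
    (divX^[k] p).coeff i = p.coeff (i + k) := by
  induction k generalizing i with
  | zero => simp
  | succ k ih => rw [Function.iterate_succ_apply', coeff_divX, ih, Nat.add_right_comm, add_assoc]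

end Kronecker

/-- Every element of a valuation ring of `ℚ̄` is a quotient of two algebraic integers with
denominator a unit of the valuation ring. -/
theorem exists_isIntegral_div (A : ValuationSubring Qbar) {x : Qbar} (hx : x ∈ A) :
    ∃ b c : Qbar, IsIntegral ℤ b ∧ IsIntegral ℤ c ∧ b ∉ A.nonunits ∧ b * x = c := by
  have halg : IsAlgebraic ℤ x :=
    (IsFractionRing.isAlgebraic_iff ℤ ℚ Qbar).mpr (Algebra.IsAlgebraic.isAlgebraic x)
  obtain ⟨p₀, hp₀, hp₀x⟩ := halg
  set p := p₀.primPart
  have hpx : aeval x p = 0 := aeval_primPart_eq_zero hp₀ hp₀x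
  have hint := isIntegral_aeval_divX_iterate hpx
  set b : ℕ → Qbar := fun k => aeval x (divX^[k] p)
  have hrec : ∀ k, x * b (k + 1) + (p.coeff k : ℤ) = b k := by
    intro k
    have hstep := congrArg (aeval x) (X_mul_divX_add (divX^[k] p))
    rw [map_add, map_mul, aeval_X, aeval_C, ← Function.iterate_succ_apply' divX k p,
      eq_intCast, coeff_divX_iterate, Nat.zero_add] at hstep
    exact hstep
  have hb0 : b 0 = 0 := hpx
  by_cases h : ∀ k, b k ∈ A.nonunits
  · exfalso
    have hbA : ∀ k, b k ∈ A := fun k => A.nonunits_subset (h k)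
    let 𝔪 := IsLocalRing.maximalIdeal A
    have hb𝔪 : ∀ k, (⟨b k, hbA k⟩ : A) ∈ 𝔪 := fun k =>
      (A.coe_mem_nonunits_iff (a := ⟨b k, hbA k⟩)).mp (h k)
    have hcoeff : ∀ k, p.coeff k ∈ 𝔪.comap (algebraMap ℤ A) := by
      intro k
      have : algebraMap ℤ A (p.coeff k) =
          ⟨b k, hbA k⟩ - ⟨x, hx⟩ * ⟨b (k + 1), hbA (k + 1)⟩ := by
        apply Subtype.ext
        simp [← hrec k]
      rw [Ideal.mem_comap, this]
      exact sub_mem (hb𝔪 k) (Ideal.mul_mem_left _ _ (hb𝔪 (k + 1)))
    obtain ⟨d, hd⟩ := IsPrincipalIdealRing.principal (𝔪.comap (algebraMap ℤ A))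
    have hdiv : C d ∣ p := C_dvd_iff_dvd_coeff _ _ |>.mpr fun k => by
      have := hcoeff k
      rw [hd] at this
      exact Submodule.mem_span_singleton.mp this |>.elim fun a ha => ⟨a, by
        rw [← ha, smul_eq_mul, mul_comm]⟩
    have hu : IsUnit d := p₀.isPrimitive_primPart d hdiv
    have : 𝔪.comap (algebraMap ℤ A) = ⊤ :=
      Ideal.eq_top_of_isUnit_mem _ (hd ▸ Submodule.mem_span_singleton_self d) hu
    exact Ideal.IsPrime.ne_top (Ideal.comap_isPrime _ 𝔪) this
  · push Not at h
    obtain ⟨k, hk⟩ := h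
    obtain _ | k := k
    · exact absurd (hb0 ▸ A.nonunits.mem_carrier.mp (by simp)) hk
    refine ⟨b (k + 1), b k - (p.coeff k : ℤ), hint _, ?_, hk, ?_⟩
    · exact (hint k).sub (isIntegral_algebraMap (x := p.coeff k))
    · rw [← hrec k, add_sub_cancel_right, mul_comm]

/-- There is a valuation ring of `ℚ̄` over every prime. -/
theorem exists_liesOverPrime {ℓ : ℕ} (hℓ : ℓ.Prime) :
    ∃ A : ValuationSubring Qbar, A.LiesOverPrime ℓ := by
  let R : Subring Qbar := (algebraMap ℤ Qbar).range
  let e := (algebraMap ℤ Qbar).rangeRestrict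
  have hinj : Function.Injective e := fun a b h =>
    (algebraMap ℤ Qbar).injective_int (congrArg Subtype.val h)
  let r : R := e (ℓ : ℤ)
  have hne : Ideal.span {r} ≠ ⊤ := by
    intro h
    rw [Ideal.span_singleton_eq_top] at h
    obtain ⟨y, hy⟩ := h.exists_right_inv
    obtain ⟨z, rfl⟩ := (algebraMap ℤ Qbar).rangeRestrict_surjective y
    have : (ℓ : ℤ) * z = 1 := hinj (by rw [map_mul, map_one]; exact hy)
    exact hℓ.ne_one (by exact_mod_cast Int.eq_one_of_mul_eq_one_right (by positivity) this)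
  obtain ⟨A, -, hA⟩ := Ideal.image_subset_nonunits_valuationSubring _ hne
  refine ⟨A, ?_⟩
  have := hA ⟨r, Ideal.subset_span rfl, rfl⟩
  simpa [r, e, ValuationSubring.LiesOverPrime] using this

/-- The inclusion of the algebraic integers in a valuation ring of `ℚ̄`. -/
noncomputable def integersToValuationSubring (A : ValuationSubring Qbar) : Zbar →+* A where
  toFun x := ⟨x.1, valuationSubring_mem_of_isIntegral A x.2⟩
  map_one' := rfl
  map_mul' _ _ := rfl
  map_zero' := rfl
  map_add' _ _ := rfl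

/-- The prime of the algebraic integers below a valuation ring. -/
noncomputable def centerIdeal (A : ValuationSubring Qbar) : Ideal Zbar :=
  (IsLocalRing.maximalIdeal A).comap (integersToValuationSubring A)

instance centerIdeal_isPrime (A : ValuationSubring Qbar) : (centerIdeal A).IsPrime :=
  Ideal.comap_isPrime _ _

lemma mem_centerIdeal_iff {A : ValuationSubring Qbar} {x : Zbar} :
    x ∈ centerIdeal A ↔ (x : Qbar) ∈ A.nonunits :=
  (A.coe_mem_nonunits_iff (a := integersToValuationSubring A x)).symm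

instance isInvariant_int_integers : Algebra.IsInvariant ℤ Zbar Γℚ where
  isInvariant b hb := by
    obtain ⟨q, hq⟩ := (InfiniteGalois.mem_range_algebraMap_iff_fixed (k := ℚ) (b : Qbar)).mpr
      fun g => congrArg Subtype.val (hb g)
    have hqi : IsIntegral ℤ q := by
      rw [← isIntegral_algebraMap_iff (algebraMap ℚ Qbar).injective, hq]
      exact b.2
    obtain ⟨n, rfl⟩ := IsIntegrallyClosed.isIntegral_iff.mp hqi
    exact ⟨n, Subtype.ext (by rw [← hq]; simp)⟩

/-- An automorphism fixing the centre of a valuation ring fixes the valuation ring. -/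
lemma smul_eq_of_smul_centerIdeal_eq {A : ValuationSubring Qbar} {σ : Γℚ}
    (h : σ • centerIdeal A = centerIdeal A) : σ • A = A := by
  have key : ∀ τ : Γℚ, τ • centerIdeal A = centerIdeal A → ∀ x ∈ A, τ x ∈ A := by
    intro τ hτ x hx
    obtain ⟨b, c, hb, hc, hbu, hbc⟩ := exists_isIntegral_div A hx
    let b' : Zbar := ⟨b, hb⟩
    have hb' : τ b ∉ A.nonunits := by
      intro hmem
      have h1 : τ • b' ∈ centerIdeal A := mem_centerIdeal_iff.mpr hmem
      rw [← hτ, Ideal.smul_mem_pointwise_smul_iff] at h1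
      exact hbu (mem_centerIdeal_iff.mp h1)
    have hτc : τ c ∈ A := valuationSubring_mem_of_isIntegral A (hc.map (τ.restrictScalars ℤ))
    have hτb : τ b ∈ A := valuationSubring_mem_of_isIntegral A (hb.map (τ.restrictScalars ℤ))
    have hu : IsUnit (⟨τ b, hτb⟩ : A) := by
      by_contra hnu
      exact hb' ((A.coe_mem_nonunits_iff (a := ⟨τ b, hτb⟩)).mpr
        ((IsLocalRing.mem_maximalIdeal _).mpr hnu))
    obtain ⟨v, hv⟩ := hu.exists_left_inv
    have hval : (v : Qbar) * τ b = 1 := congrArg Subtype.val hv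
    have : τ x = v * τ c := by rw [← hbc, map_mul, ← mul_assoc, hval, one_mul]
    rw [this]
    exact mul_mem v.2 hτc
  have hinv : σ⁻¹ • centerIdeal A = centerIdeal A := by
    conv_lhs => rw [← h]
    rw [inv_smul_smul]
  ext x
  rw [ValuationSubring.mem_pointwise_smul_iff_inv_smul_mem]
  constructor
  · intro hx
    have h2 := key σ h _ hx
    rwa [← AlgEquiv.smul_def, smul_inv_smul] at h2
  · exact key σ⁻¹ hinv x

/-- At every valuation ring of `ℚ̄` over a prime there is an arithmetic Frobenius element. -/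
theorem exists_isFrobeniusAt {ℓ : ℕ} (hℓ : ℓ.Prime) (A : ValuationSubring Qbar)
    (hA : A.LiesOverPrime ℓ) : ∃ σ : Γℚ, A.IsFrobeniusAt σ ℓ := by
  classical
  let P : Ideal ℤ := Ideal.span {(ℓ : ℤ)}
  let Q := centerIdeal A
  have hℓQ : (ℓ : Zbar) ∈ Q := mem_centerIdeal_iff.mpr (by push_cast; exact hA)
  have hPmax : P.IsMaximal :=
    PrincipalIdealRing.isMaximal_of_irreducible (Nat.prime_iff_prime_int.mp hℓ).irreducible
  have hunder : Q.under ℤ = P := by
    refine (hPmax.eq_of_le (Ideal.comap_ne_top _ ((centerIdeal_isPrime A).ne_top)) ?_).symm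
    rw [Ideal.span_singleton_le_iff_mem, Ideal.mem_comap]
    simpa using hℓQ
  have : Q.IsPrime := centerIdeal_isPrime A
  haveI : Q.LiesOver P := ⟨hunder.symm⟩
  haveI : Fact ℓ.Prime := ⟨hℓ⟩
  haveI hchar : CharP (Zbar ⧸ Q) ℓ := by
    refine (CharP.charP_iff_prime_eq_zero hℓ).mpr ?_
    rw [← map_natCast (Ideal.Quotient.mk Q)]
    exact Ideal.Quotient.eq_zero_iff_mem.mpr hℓQ
  haveI : Finite (ℤ ⧸ P) := by
    haveI : NeZero ℓ := ⟨hℓ.ne_zero⟩
    exact Finite.of_equiv _ (Int.quotientSpanNatEquivZMod ℓ).symm.toEquiv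
  let fr : (Zbar ⧸ Q) →ₐ[ℤ ⧸ P] (Zbar ⧸ Q) :=
    { frobenius (Zbar ⧸ Q) ℓ with
      commutes' := fun r => by
        obtain ⟨n, rfl⟩ := Ideal.Quotient.mk_surjective r
        have hn : Ideal.Quotient.mk P n = (n : ℤ ⧸ P) := eq_intCast _ n
        rw [hn, map_intCast]
        exact map_intCast (frobenius (Zbar ⧸ Q) ℓ) n }
  have hinj : Function.Injective fr := frobenius_inj (Zbar ⧸ Q) ℓ
  have hsurj : Function.Surjective fr := by
    intro y
    haveI : Algebra.IsIntegral (ℤ ⧸ P) (Zbar ⧸ Q) := inferInstance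
    haveI : Module.Finite (ℤ ⧸ P) (Algebra.adjoin (ℤ ⧸ P) {y}) :=
      Module.Finite.iff_fg.mpr (Algebra.IsIntegral.isIntegral y).fg_adjoin_singleton
    haveI : Finite (Algebra.adjoin (ℤ ⧸ P) {y}) := Module.finite_of_finite (ℤ ⧸ P)
    let f : Algebra.adjoin (ℤ ⧸ P) {y} → Algebra.adjoin (ℤ ⧸ P) {y} :=
      fun z => ⟨(z : Zbar ⧸ Q) ^ ℓ, pow_mem z.2 ℓ⟩
    have hf : Function.Injective f := fun z w hzw =>
      Subtype.ext (hinj (congrArg Subtype.val hzw))
    obtain ⟨z, hz⟩ := Finite.surjective_of_injective hf ⟨y, Algebra.self_mem_adjoin_singleton _ y⟩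
    exact ⟨z, congrArg Subtype.val hz⟩
  let _ : TopologicalSpace Zbar := ⊥
  haveI : DiscreteTopology Zbar := ⟨rfl⟩
  haveI : ContinuousSMul Γℚ Zbar := continuousSMul_iff_stabilizer_isOpen.mpr fun x => by
    have heq : (MulAction.stabilizer Γℚ x : Set Γℚ) = MulAction.stabilizer Γℚ (x : Qbar) := by
      ext g
      exact Subtype.ext_iff
    rw [heq]
    exact stabilizer_isOpen_of_isIntegral (K := ℚ) (x : Qbar)
  obtain ⟨⟨σ, hσQ⟩, hσ⟩ :=
    Ideal.Quotient.stabilizerHom_surjective_of_profinite (G := Γℚ) P Q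
      (AlgEquiv.ofBijective fr ⟨hinj, hsurj⟩)
  have hσA : σ • A = A := smul_eq_of_smul_centerIdeal_eq hσQ
  refine ⟨σ, hσA, fun r => ?_⟩
  obtain ⟨⟨x, hx⟩, rfl⟩ := IsLocalRing.residue_surjective r
  obtain ⟨b, c, hb, hc, hbu, hbc⟩ := exists_isIntegral_div A hx
  let g : A.decompositionSubgroup ℚ := ⟨σ, hσA⟩
  let b' : Zbar := ⟨b, hb⟩
  let c' : Zbar := ⟨c, hc⟩
  let ι := integersToValuationSubring A
  have hcong : ∀ z : Zbar, g • IsLocalRing.residue A (ι z) = IsLocalRing.residue A (ι z) ^ ℓ := by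
    intro z
    have h1 := congrArg (fun e => e (Ideal.Quotient.mk Q z)) hσ
    simp only [AlgEquiv.coe_ofBijective] at h1
    have h2 : (σ • z) - z ^ ℓ ∈ Q := Ideal.Quotient.eq.mp (by rw [map_pow]; exact h1)
    have h3 : IsLocalRing.residue A (ι (σ • z - z ^ ℓ)) = 0 :=
      (IsLocalRing.residue_eq_zero_iff _).mpr h2
    rw [map_sub, map_sub, map_pow, map_pow, sub_eq_zero] at h3
    exact h3
  have hne : IsLocalRing.residue A (ι b') ≠ 0 := fun h0 =>
    hbu ((A.coe_mem_nonunits_iff (a := ι b')).mpr ((IsLocalRing.residue_eq_zero_iff _).mp h0))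
  have hmul : IsLocalRing.residue A (ι b') * IsLocalRing.residue A (⟨x, hx⟩ : A) =
      IsLocalRing.residue A (ι c') := by
    rw [← map_mul]
    exact congrArg _ (Subtype.ext hbc)
  change g • _ = _
  apply mul_left_cancel₀ (pow_ne_zero ℓ hne)
  rw [← mul_pow, hmul, ← hcong b', ← smul_mul', hmul, hcong c']

end FermatLib.Basic
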