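import Fermat.Agent.Basic.EigenformLift
import Fermat.Prelude.Def_CuspForm_IntegralLattice
import Fermat.Prelude.Def_FormalHecke_Eigensystem
/-!
The Deligne-Serre lifting lemma modulo 3, for lattice-realised formal eigensystems.
-/
set_option autoImplicit false

noncomputable section

open CuspForm EisensteinWeightOne CongruenceSubgroup ModularFormClass

namespace FermatLib.Basic

variable {N : ℕ}

theorem qIntegralSet_subset_intLattice :
    qIntegralSet N ⊆ (intLattice N 2 : Set (CuspForm (Gamma0 N) 2)) := fun f hf =>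
  Submodule.subset_span fun n => by
    obtain ⟨m, hm⟩ := Subring.mem_bot.1 (hf n); exact ⟨m, hm.symm⟩

theorem hasIntegralStructure_of_hasIntegralBasis (h : HasIntegralBasis N) :
    HasIntegralStructure N 2 :=
  top_le_iff.1 (h.ge.trans (Submodule.span_mono qIntegralSet_subset_intLattice))

theorem bridgeProduct_coeff_mod_three (a : ℕ → ℤ) (n : ℕ) :
    ((PowerSeries.coeff n (bridgeProduct a) : ℤ) : ZMod 3) = (a n : ZMod 3) := by
  have he : PowerSeries.map (Int.castRingHom (ZMod 3)) (e1Chi3In ℤ) = 1 := by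
    ext m
    simp only [e1Chi3In, PowerSeries.coeff_map, e1Chi3, PowerSeries.coeff_mk,
      PowerSeries.coeff_one, eq_intCast, Int.cast_id]
    split_ifs with hm
    · simp
    · rw [Int.cast_mul, show ((6 : ℤ) : ZMod 3) = 0 by decide, zero_mul]
  have h := PowerSeries.coeff_map (Int.castRingHom (ZMod 3)) n (bridgeProduct a)
  rw [bridgeProduct, map_mul, he, mul_one, PowerSeries.coeff_map, PowerSeries.coeff_mk] at h
  simpa [bridgeProduct] using h.symm

theorem chiNegThree_mod_three (n : ℕ) : (chiNegThree n : ZMod 3) = (n : ZMod 3) := by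
  have h : (3 : ℤ) ∣ (n : ℤ) - chiNegThree n := by
    unfold chiNegThree; split_ifs <;> omega
  have := (ZMod.intCast_eq_intCast_iff_dvd_sub (chiNegThree n) (n : ℤ) 3).2 (by simpa using h)
  simpa using this

/-- The Hecke operators sending `f` into three times the integral lattice form an ideal. -/
def modThreeAnnihilator [NeZero N] (f : CuspForm (Gamma0 N) 2) :
    Ideal ↥(heckeAlgebra N 2 (∅ : Set ℕ)) where
  carrier := {t | ∃ g ∈ intLattice N 2,
    (t : Module.End ℂ (CuspForm (Gamma0 N) 2)) f = (3 : ℂ) • g}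
  zero_mem' := ⟨0, Submodule.zero_mem _, by simp⟩
  add_mem' := by
    rintro s t ⟨g, hg, hs⟩ ⟨g', hg', ht⟩
    exact ⟨g + g', Submodule.add_mem _ hg hg', by simp [hs, ht, smul_add]⟩
  smul_mem' := by
    rintro s t ⟨g, hg, ht⟩
    refine ⟨(s : Module.End ℂ (CuspForm (Gamma0 N) 2)) g,
      mem_intLattice_of_mem_heckeAlgebra one_le_two s.2 hg, ?_⟩
    rw [smul_eq_mul, Subalgebra.coe_mul, Module.End.mul_apply, ht, map_smul]

theorem exists_eigenform_congruent_of_realized_mod_three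
    [NeZero N] (h : CuspForm.HasIntegralBasis N) {a : ℕ → ℤ}
    (heig : FormalHecke.IsEigensystem
      (fun ℓ => if ℓ ∣ N then 0 else ((chiNegThree ℓ : ℤ) : ℤ)) a)
    (hreal : CuspForm.IsLatticeRealized N a) :
    ∃ (f : CuspForm (Gamma0 N) 2) (_ : f.IsNormalizedEigenform)
      (𝔪' : Ideal (integralClosure ℤ ℂ)), 𝔪'.IsMaximal ∧
      ((3 : ℕ) : integralClosure ℤ ℂ) ∈ 𝔪' ∧
      ∀ (ℓ : ℕ) (_ : ℓ.Prime) (_ : ¬ ℓ ∣ N),
        ∃ c : integralClosure ℤ ℂ, (c : ℂ) = ModularFormClass.qCoeff f ℓ ∧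
          c - (a ℓ : integralClosure ℤ ℂ) ∈ 𝔪' := by
  obtain ⟨f, hfint, af, haf, hcong⟩ := hreal
  have hafmod : ∀ n, (af n : ZMod 3) = (a n : ZMod 3) := fun n => by
    rw [← bridgeProduct_coeff_mod_three a n]
    exact ((ZMod.intCast_eq_intCast_iff_dvd_sub _ _ 3).2 (hcong n)).symm
  set I := modThreeAnnihilator f with hI
  -- membership in `I` from congruences between coefficients
  have crit : ∀ (t : ↥(heckeAlgebra N 2 (∅ : Set ℕ))) (b : ℕ → ℤ),
      (∀ n, qCoeff ⇑((t : Module.End ℂ (CuspForm (Gamma0 N) 2)) f) n = (b n : ℂ)) →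
      (∀ n, (b n : ZMod 3) = 0) → t ∈ I := by
    intro t b hb hb3
    refine ⟨(3 : ℂ)⁻¹ • (t : Module.End ℂ (CuspForm (Gamma0 N) 2)) f,
      Submodule.subset_span fun n => ?_, by rw [smul_smul]; norm_num⟩
    obtain ⟨m, hm⟩ := (ZMod.intCast_zmod_eq_zero_iff_dvd (b n) 3).1 (hb3 n)
    refine ⟨m, ?_⟩
    rw [qCoeff_cusp_smul, hb, hm]
    push_cast
    ring
  have h3 : ((3 : ℕ) : ↥(heckeAlgebra N 2 (∅ : Set ℕ))) ∈ I :=
    ⟨f, qIntegralSet_subset_intLattice hfint, by
      rw [show (((3 : ℕ) : ↥(heckeAlgebra N 2 (∅ : Set ℕ))) :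
          Module.End ℂ (CuspForm (Gamma0 N) 2)) = (3 : ℕ) from
            map_natCast (heckeAlgebra N 2 (∅ : Set ℕ)).val 3,
        Module.End.natCast_apply, ← Nat.cast_smul_eq_nsmul ℂ]
      norm_num⟩
  have hIne : I ≠ ⊤ := by
    intro htop
    obtain ⟨g, hg, hfg⟩ := (Ideal.eq_top_iff_one _).1 htop
    obtain ⟨m, hm⟩ : ∃ m : ℤ, qCoeff ⇑g 1 = (m : ℂ) :=
      (P2MW.S_CuspForm_intLattice_fg.W3WsD.mem_intLattice_iff g).1 hg 1
    rw [Subalgebra.coe_one, Module.End.one_apply] at hfg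
    have h1 : (af 1 : ℂ) = ((3 * m : ℤ) : ℂ) := by
      rw [haf 1, hfg, qCoeff_cusp_smul, hm]; push_cast; rfl
    have h2 := congrArg (Int.cast : ℤ → ZMod 3) (Int.cast_inj.1 h1)
    rw [hafmod 1, heig.1, Int.cast_mul, show ((3 : ℤ) : ZMod 3) = 0 by decide, zero_mul,
      Int.cast_one] at h2
    exact one_ne_zero h2
  obtain ⟨M, hM, hIM⟩ := Ideal.exists_le_maximal I hIne
  haveI := hM
  obtain ⟨F, χ, 𝔪, hF, h𝔪, hcomap, -, hT, -⟩ :=
    exists_normalizedEigenform_lift_maximal (hasIntegralStructure_of_hasIntegralBasis h) M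
  refine ⟨F, hF, 𝔪, h𝔪, ?_, fun ℓ hℓ hℓN => ?_⟩
  · have h' : ((3 : ℕ) : ↥(heckeAlgebra N 2 (∅ : Set ℕ))) ∈ 𝔪.comap χ :=
      hcomap.symm ▸ hIM h3
    rwa [Ideal.mem_comap, map_natCast] at h'
  · refine ⟨χ (heckeAlgebra.T hℓ hℓN (Set.notMem_empty ℓ)), hT ℓ hℓ hℓN, ?_⟩
    have hmem : heckeAlgebra.T hℓ hℓN (Set.notMem_empty ℓ)
        - ((a ℓ : ℤ) : ↥(heckeAlgebra N 2 (∅ : Set ℕ))) ∈ I := by
      refine crit _ (fun n => af (n * ℓ) + (if ℓ ∣ n then (ℓ : ℤ) * af (n / ℓ) else 0)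
        - a ℓ * af n) (fun n => ?_) (fun n => ?_)
      · rw [Subalgebra.coe_sub, LinearMap.sub_apply, qCoeff_cusp_sub, heckeAlgebra.coe_T,
          qCoeff_heckeTLin_two hℓ hℓN, SubringClass.coe_intCast]
        rw [show ((a ℓ : ℤ) : Module.End ℂ (CuspForm (Gamma0 N) 2)) f = (a ℓ : ℂ) • f by
          simp [Int.cast_smul_eq_zsmul]]
        rw [qCoeff_cusp_smul]
        simp only [← haf]
        split_ifs <;> push_cast <;> ring
      · have he := congrArg (Int.cast : ℤ → ZMod 3) (heig.2 ℓ hℓ n)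
        simp only [if_neg hℓN] at he
        push_cast at he ⊢
        rw [Nat.mul_comm n ℓ]
        by_cases hn : ℓ ∣ n
        · simp only [if_pos hn, chiNegThree_mod_three] at he
          simp only [if_pos hn, hafmod]
          linear_combination he
        · simp only [if_neg hn, mul_zero, add_zero] at he
          simp only [if_neg hn, add_zero, hafmod]
          linear_combination he
    have h' := hIM hmem
    rw [← hcomap, Ideal.mem_comap, map_sub, map_intCast] at h'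
    exact h'

end FermatLib.Basic
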