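import Mathlib.RingTheory.Regular.ProjectiveDimension
import Mathlib.RingTheory.FiniteLength
import Mathlib.RingTheory.SimpleModule.Basic
import Mathlib.RingTheory.LocalRing.Module

/-!
# Modules with a regular sequence of maximal length over a local ring with regular maximal ideal

If the maximal ideal of a Noetherian local ring `A` is generated by a regular sequence of length
`n`, then a finite module having a regular sequence of length `n` in the maximal ideal, with
quotient of finite length, is free. The proof uses projective dimension: the quotient has
projective dimension at most `n` (by dévissage), and exactly `pd N + n`.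
-/

set_option autoImplicit false

namespace FermatLib.Basic

open CategoryTheory IsLocalRing RingTheory.Sequence

variable {A : Type} [CommRing A] [IsLocalRing A]

lemma projDimLE_of_finiteLength {Q : Type} [AddCommGroup Q] [Module A Q]
    (hQ : IsFiniteLength A Q) (n : ℕ)
    (hk : HasProjectiveDimensionLE (ModuleCat.of A (A ⧸ maximalIdeal A)) n) :
    HasProjectiveDimensionLE (ModuleCat.of A Q) n := by
  induction hQ with
  | @of_subsingleton M _ _ _ =>
    have h0 : HasProjectiveDimensionLT (ModuleCat.of A M) 0 :=
      (ModuleCat.isZero_of_subsingleton _).hasProjectiveDimensionLT_zero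
    exact hasProjectiveDimensionLT_of_ge _ 0 (n + 1) (Nat.zero_le _)
  | @of_simple_quotient M _ _ N hs _ ih =>
    obtain ⟨I, hI, ⟨e⟩⟩ := isSimpleModule_iff_quot_maximal.mp hs
    obtain rfl := IsLocalRing.eq_maximalIdeal hI
    have h3 : HasProjectiveDimensionLE (ModuleCat.of A (M ⧸ N)) n :=
      ModuleCat.hasProjectiveDimensionLE_of_linearEquiv (M := ModuleCat.of A (A ⧸ maximalIdeal A))
        (N := ModuleCat.of A (M ⧸ N)) e.symm n
    let S : ShortComplex (ModuleCat.{0} A) :=
      N.mkQ.shortComplexKer
    have hS : S.ShortExact := LinearMap.shortExact_shortComplexKer N.mkQ_surjective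
    have h1 : HasProjectiveDimensionLE S.X₁ n :=
      ModuleCat.hasProjectiveDimensionLE_of_linearEquiv (M := ModuleCat.of A N)
        (N := S.X₁) (LinearEquiv.ofEq _ _ N.ker_mkQ.symm) n
    exact hS.hasProjectiveDimensionLT_X₂ (n + 1) h1 h3

variable [IsNoetherianRing A]

/-- Over a local ring whose maximal ideal is generated by a regular sequence, a finite module
with a regular sequence of the same length and finite length quotient is free. -/
theorem free_of_regular_sequence {N : Type} [AddCommGroup N] [Module A N] [Module.Finite A N]
    [Nontrivial N] (rs : List A) (hrs : IsWeaklyRegular A rs)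
    (hm : Ideal.ofList rs = maximalIdeal A) (ss : List A) (hss : IsWeaklyRegular N ss)
    (hlen : ss.length = rs.length) (hmem : ∀ s ∈ ss, s ∈ maximalIdeal A)
    (hfl : IsFiniteLength A (N ⧸ (Ideal.ofList ss • ⊤ : Submodule A N))) :
    Module.Free A N := by
  have hk : projectiveDimension (ModuleCat.of A (A ⧸ maximalIdeal A)) = rs.length := by
    have h := ModuleCat.projectiveDimension_quotient_eq_add_length_of_isWeaklyRegular
      (ModuleCat.of A A) rs hrs (fun r hr => by
        rw [← hm]; exact Ideal.subset_span hr)
    have : Projective (ModuleCat.of A A) := (IsProjective.iff_projective A).mp inferInstance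
    rw [ModuleCat.projectiveDimension_eq_zero_of_projective (ModuleCat.of A A), zero_add] at h
    rw [← h]
    refine ModuleCat.projectiveDimension_eq_of_linearEquiv (M := ModuleCat.of A (A ⧸ maximalIdeal A))
      (N := ModuleCat.of A (A ⧸ (Ideal.ofList rs • ⊤ : Submodule A A))) ?_
    exact Submodule.quotEquivOfEq _ _ (by rw [smul_eq_mul, Ideal.mul_top, hm])
  have hQ := projDimLE_of_finiteLength hfl rs.length
    ((projectiveDimension_le_iff _ _).mp hk.le)
  rw [HasProjectiveDimensionLE, ← zero_add rs.length] at hQ
  have hQ' := (projectiveDimension_le_iff _ _).mpr hQ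
  have heq := ModuleCat.projectiveDimension_quotient_eq_add_length_of_isWeaklyRegular
    (ModuleCat.of A N) ss hss hmem
  rw [heq, hlen, Nat.cast_add, ENat.WithBot.add_le_add_natCast_right_iff,
    projectiveDimension_le_iff, HasProjectiveDimensionLE, zero_add,
    ← projective_iff_hasProjectiveDimensionLT_one] at hQ'
  have : Module.Projective A N := (IsProjective.iff_projective _).mpr hQ'
  exact Module.free_of_flat_of_isLocalRing

end FermatLib.Basic
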