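import Fermat.Prelude.Def_Algebra_PatchingDatum
import Fermat.Agent.Basic.RegularFree
import Fermat.Agent.Basic.PowerSeriesRegular
import Mathlib.RingTheory.MvPowerSeries.Equiv
import Mathlib.RingTheory.Artinian.Module
import Mathlib.LinearAlgebra.Quotient.Pi
import Mathlib.LinearAlgebra.Basis.VectorSpace

/-!
# Patching: the descent step

At a patching level with trivial relation ideal, the patched module is free over the power series
ring, so the original module is free over `R` and `R` is the quotient by the images of the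
variables.
-/

set_option autoImplicit false

namespace FermatLib.Basic

open IsLocalRing RingTheory.Sequence

variable {𝒪 : Type} [CommRing 𝒪] [IsDomain 𝒪] [IsDiscreteValuationRing 𝒪]
  {r : ℕ} {R : Type} [CommRing R] [Algebra 𝒪 R]
  {M : Type} [AddCommGroup M] [Module R M] [Nontrivial M]
  (L : Algebra.PatchingLevel 𝒪 r R M ⊥)

local notation "P" => MvPowerSeries (Fin r) 𝒪

omit [IsDomain 𝒪] [IsDiscreteValuationRing 𝒪] in
lemma patchingLevel_nontrivial : Nontrivial L.N := by
  by_contra h
  rw [not_nontrivial_iff_subsingleton] at h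
  exact not_subsingleton M L.π_surjective.subsingleton

omit [IsDiscreteValuationRing 𝒪] [IsDomain 𝒪] [Nontrivial M] in
lemma patchingLevel_finite : Module.Finite P L.N := by
  refine ⟨⟨(Set.finite_range L.b).toFinset, ?_⟩⟩
  rw [Set.Finite.coe_toFinset, eq_top_iff]
  intro x _
  obtain ⟨c, rfl⟩ := L.b_span x
  exact Submodule.sum_mem _ fun i _ =>
    Submodule.smul_mem _ _ (Submodule.subset_span ⟨i, rfl⟩)

omit [IsDiscreteValuationRing 𝒪] [IsDomain 𝒪] [Nontrivial M] in
lemma patchingLevel_phi_C (a : 𝒪) :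
    L.φ (MvPowerSeries.C a) = MvPowerSeries.C a := by
  simpa [MvPowerSeries.algebraMap_apply] using L.φ.commutes a

lemma patchingLevel_phi_X_mem (i : Fin r) :
    L.φ (MvPowerSeries.X i) ∈ maximalIdeal P := by
  intro hu
  have h := hu.map L.ψ
  rw [L.ψ_φ_X, isUnit_zero_iff] at h
  have : Subsingleton R := subsingleton_of_zero_eq_one h
  exact not_subsingleton M (Module.subsingleton R M)

/-- The regular system of parameters of the power series ring. -/
noncomputable def regularParams (ϖ : 𝒪) : List P :=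
  List.ofFn (MvPowerSeries.X : Fin r → P) ++ [MvPowerSeries.C ϖ]

omit [IsDiscreteValuationRing 𝒪] [Nontrivial M] in
lemma patchingLevel_weaklyRegular {ϖ : 𝒪} (hϖ : ϖ ≠ 0) :
    IsWeaklyRegular L.N ((regularParams ϖ).map L.φ) := by
  let g : (Fin L.d → P) →+ L.N :=
    { toFun := fun c => ∑ i, L.φ (c i) • L.b i
      map_zero' := by simp
      map_add' := fun x y => by simp [add_smul, Finset.sum_add_distrib] }
  have hinj : Function.Injective g :=
    (injective_iff_map_eq_zero g).mpr fun c hc =>
      funext fun i => (Submodule.mem_bot _).mp ((L.b_rel c).mp hc i)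
  have hsurj : Function.Surjective g := fun x => ⟨_, (L.b_span x).choose_spec.symm⟩
  let e := AddEquiv.ofBijective g ⟨hinj, hsurj⟩
  refine (AddEquiv.isWeaklyRegular_congr (e := e) (as := (regularParams ϖ : List P)) ?_).mp ?_
  · refine List.forall₂_map_right_iff.mpr (List.forall₂_same.mpr fun a _ x => ?_)
    show g (a • x) = L.φ a • g x
    simp [g, Finset.smul_sum, mul_smul]
  · exact ((TensorProduct.rid P (Fin L.d → P)).isWeaklyRegular_congr _).mp
      ((isWeaklyRegular_X_append_C hϖ).isWeaklyRegular_lTensor (M₂ := Fin L.d → P))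

omit [Nontrivial M] in
lemma patchingLevel_finiteLength {ϖ : 𝒪} (hϖ : Irreducible ϖ) :
    IsFiniteLength P
      (L.N ⧸ (Ideal.ofList ((regularParams ϖ).map L.φ) • ⊤ : Submodule P L.N)) := by
  have := patchingLevel_finite L
  let I : Ideal P := Ideal.ofList ((regularParams ϖ).map L.φ)
  let _ : Module 𝒪 L.N := Module.compHom L.N (MvPowerSeries.C : 𝒪 →+* P)
  have hC : ∀ (a : 𝒪) (x : L.N), a • x = (MvPowerSeries.C a : P) • x := fun _ _ => rfl
  have : IsScalarTower 𝒪 P L.N := ⟨fun a f x => by
    rw [hC, Algebra.smul_def, mul_smul, MvPowerSeries.algebraMap_apply, Algebra.algebraMap_self,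
      RingHom.id_apply]⟩
  let q := (I • ⊤ : Submodule P L.N).mkQ
  let g : (Fin L.d → 𝒪) →ₗ[𝒪] L.N ⧸ (I • ⊤ : Submodule P L.N) :=
    ∑ i, (LinearMap.toSpanSingleton 𝒪 _ (q (L.b i))).comp (LinearMap.proj i)
  have hg : ∀ c, g c = ∑ i, c i • q (L.b i) := fun c => by simp [g]
  have hsurj : Function.Surjective g := by
    intro y
    obtain ⟨x, rfl⟩ := (I • ⊤ : Submodule P L.N).mkQ_surjective y
    obtain ⟨c, rfl⟩ := L.b_span x
    refine ⟨fun i => MvPowerSeries.constantCoeff (c i), ?_⟩
    rw [hg, map_sum]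
    refine Finset.sum_congr rfl fun i _ => ?_
    rw [← q.map_smul_of_tower]
    refine ((Submodule.Quotient.eq _).mpr ?_)
    rw [hC, ← sub_smul, ← patchingLevel_phi_C L, ← map_sub]
    refine Submodule.smul_mem_smul ?_ trivial
    show L.φ.toRingHom _ ∈ Ideal.ofList ((regularParams ϖ).map L.φ.toRingHom)
    rw [← Ideal.map_ofList]
    refine Ideal.mem_map_of_mem _ ?_
    rw [regularParams, Ideal.ofList_append]
    exact Ideal.mem_sup_left ((mem_ofList_X_iff _).mpr (by simp))
  have hker : ∀ c : Fin L.d → 𝒪,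
      c ∈ Submodule.pi Set.univ (fun _ => Ideal.span ({ϖ} : Set 𝒪)) → g c = 0 := by
    intro c hc
    rw [hg]
    refine Finset.sum_eq_zero fun i _ => ?_
    obtain ⟨a, ha⟩ := Ideal.mem_span_singleton'.mp (hc i trivial)
    rw [← ha, mul_comm, ← q.map_smul_of_tower]
    refine (Submodule.Quotient.mk_eq_zero _).mpr ?_
    rw [hC, map_mul]
    refine Submodule.smul_mem_smul (I.mul_mem_right _ ?_) trivial
    refine Ideal.subset_span (List.mem_map.mpr ⟨_, ?_, patchingLevel_phi_C L ϖ⟩)
    simp [regularParams]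
  have : IsSimpleModule 𝒪 (𝒪 ⧸ Ideal.span ({ϖ} : Set 𝒪)) := by
    rw [← hϖ.maximalIdeal_eq, isSimpleModule_iff_quot_maximal]
    exact ⟨_, inferInstance, ⟨LinearEquiv.refl _ _⟩⟩
  have : IsArtinian 𝒪
      ((Fin L.d → 𝒪) ⧸ Submodule.pi Set.univ (fun _ => Ideal.span ({ϖ} : Set 𝒪))) :=
    (Submodule.quotientPi _).symm.isArtinian_iff.mp inferInstance
  have : IsArtinian 𝒪 (L.N ⧸ (I • ⊤ : Submodule P L.N)) :=
    isArtinian_of_surjective _ (Submodule.liftQ _ g fun c hc => hker c hc) fun y => by
      obtain ⟨c, rfl⟩ := hsurj y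
      exact ⟨Submodule.Quotient.mk c, rfl⟩
  exact isFiniteLength_iff_isNoetherian_isArtinian.mpr
    ⟨inferInstance, isArtinian_of_tower 𝒪 this⟩

theorem patchingLevel_module_free : Module.Free P L.N := by
  have := patchingLevel_finite L
  have := patchingLevel_nontrivial L
  obtain ⟨ϖ, hϖ⟩ := IsDiscreteValuationRing.exists_irreducible 𝒪
  refine free_of_regular_sequence (regularParams ϖ) (isWeaklyRegular_X_append_C hϖ.ne_zero)
    (ofList_X_append_C_eq_maximalIdeal hϖ) ((regularParams ϖ).map L.φ)
    (patchingLevel_weaklyRegular L hϖ.ne_zero) (List.length_map _) ?_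
    (patchingLevel_finiteLength L hϖ)
  intro s hs
  obtain ⟨a, ha, rfl⟩ := List.mem_map.mp hs
  rcases List.mem_append.mp ha with ha | ha
  · obtain ⟨i, rfl⟩ := List.mem_ofFn.mp ha
    exact patchingLevel_phi_X_mem L i
  · obtain rfl := List.mem_singleton.mp ha
    rw [patchingLevel_phi_C L, ← ofList_X_append_C_eq_maximalIdeal hϖ]
    exact Ideal.subset_span (List.mem_append.mpr (Or.inr (List.mem_singleton.mpr rfl)))

/-- The descent step of patching. -/
theorem patchingLevel_descent :
    Module.Free R M ∧ Module.annihilator R M = ⊥ ∧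
      RingHom.ker L.ψ = Ideal.span (Set.range fun i : Fin r => L.φ (MvPowerSeries.X i)) := by
  have := patchingLevel_finite L
  have := patchingLevel_nontrivial L
  have := patchingLevel_module_free L
  classical
  let c := Module.Free.chooseBasis P L.N
  have : Nonempty (Module.Free.ChooseBasisIndex P L.N) := c.index_nonempty
  let I : Ideal P := Ideal.span (Set.range fun i : Fin r => L.φ (MvPowerSeries.X i))
  have coord_mem : ∀ j x, x ∈ (I • ⊤ : Submodule P L.N) → c.coord j x ∈ I := fun j x hx => by
    refine Submodule.smul_induction_on (p := fun y => c.coord j y ∈ I) hx ?_ ?_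
    · intro a ha n _
      rw [map_smul, smul_eq_mul]
      exact I.mul_mem_right _ ha
    · intro a b ha hb
      rw [map_add]
      exact I.add_mem ha hb
  have hker : RingHom.ker L.ψ = I := by
    refine le_antisymm (fun f hf => ?_) (Ideal.span_le.mpr ?_)
    · obtain ⟨j⟩ := ‹Nonempty (Module.Free.ChooseBasisIndex P L.N)›
      have h := coord_mem j _ ((L.ker_π (f • c j)).mp (by
        rw [L.π_smul, RingHom.mem_ker.mp hf, zero_smul]))
      simpa using h
    · rintro _ ⟨i, rfl⟩
      exact L.ψ_φ_X i
  have li : LinearIndependent R (fun j => L.π (c j)) := by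
    rw [Fintype.linearIndependent_iff]
    intro g hg j
    choose f hf using fun j => L.ψ_surjective (g j)
    have h0 : L.π (∑ j, f j • c j) = 0 := by
      rw [map_sum, ← hg]
      exact Finset.sum_congr rfl fun j _ => by rw [L.π_smul, hf]
    have h := coord_mem j _ ((L.ker_π _).mp h0)
    rw [Module.Basis.coord_apply, c.repr_sum_self] at h
    rw [← hker, RingHom.mem_ker, hf] at h
    exact h
  have sp : ⊤ ≤ Submodule.span R (Set.range fun j => L.π (c j)) := by
    intro m _
    obtain ⟨x, rfl⟩ := L.π_surjective m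
    rw [← c.sum_repr x, map_sum]
    refine Submodule.sum_mem _ fun j _ => ?_
    rw [L.π_smul]
    exact Submodule.smul_mem _ _ (Submodule.subset_span ⟨j, rfl⟩)
  let bM := Module.Basis.mk li sp
  refine ⟨Module.Free.of_basis bM, ?_, hker⟩
  refine (Submodule.eq_bot_iff _).mpr fun a ha => ?_
  obtain ⟨j⟩ := ‹Nonempty (Module.Free.ChooseBasisIndex P L.N)›
  simpa using congrArg (fun y => bM.repr y j) (Module.mem_annihilator.mp ha (bM j))

end FermatLib.Basic
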